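import Fermat.Agent.RT.Two.Hecke.Interface
import Fermat.Agent.GaloisReps.Characters
import Fermat.Agent.IntegralStructure.Main
import Fermat.Agent.ConductorLevel.Assembly
import Fermat.Agent.S35

/-!
# Separating a system of eigenvalues from the systems of a level

Finitely many polynomial conditions at good primes vanish on every system of the level different
from a given one, and not on the given one. A system equal to the one of a semistable curve
outside a finite set makes it modular of its conductor level.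
-/

set_option autoImplicit false
set_option linter.style.haveILetI false

noncomputable section

namespace Fermat.Agent.RT.Two

open IsLocalRing Polynomial WeierstrassCurve ModularFormClass
open Fermat.Agent.GaloisReps (FullHecke exists_eigenform_character)

/-- Homomorphisms from a ring finite over `ℤ` to a field of characteristic zero form a finite
set. -/
theorem finite_ringHom {A : Type} [CommRing A] [Module.Finite ℤ A] {K : Type} [Field K]
    [CharZero K] : Finite (A →+* K) := by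
  classical
  obtain ⟨s, hs⟩ := Module.Finite.fg_top (R := ℤ) (M := A)
  refine Finite.of_injective (β := ∀ a : s, ((minpoly ℤ (a : A)).aroots K).toFinset)
    (fun f a => ⟨f a, Multiset.mem_toFinset.mpr (Polynomial.mem_aroots.mpr
      ⟨minpoly.ne_zero (Algebra.IsIntegral.isIntegral _),
        (Polynomial.aeval_algHom_apply f.toIntAlgHom _ _).trans (by simp [minpoly.aeval])⟩)⟩)
    fun f g h => RingHom.ext fun x => ?_
  exact LinearMap.congr_fun (LinearMap.ext_on (f := f.toIntAlgHom.toLinearMap)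
    (g := g.toIntAlgHom.toLinearMap) hs fun a ha => Subtype.ext_iff.mp (congrFun h ⟨a, ha⟩)) x

variable {O : Type} [CommRing O] [IsDomain O] [CharZero O] {K : Type} [Field K] [CharZero K]
  [IsAlgClosed K] [Algebra O K] [FaithfulSMul O K] {N : ℕ} [NeZero N]

/-- The system of a form pulled back along an embedding. -/
theorem exists_character_of_system {g : CuspForm (CongruenceSubgroup.Gamma0 N) 2}
    (hg : g.IsNormalizedEigenform) (e : K →+* ℂ) :
    ∃ ψ : FullHecke N →+* K,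
      ∀ ℓ (hℓ : ℓ.Prime), e (ψ (HeckeDuality.heckeOp N 2 ℓ hℓ)) = qCoeff g ℓ := by
  obtain ⟨χ, hχ⟩ := exists_eigenform_character hg
  letI := e.toAlgebra
  have hmem : ∀ a, ∃ z : K, e z = (χ a : ℂ) := fun a => by
    have hint : IsIntegral K (χ a : ℂ) := (χ a).2.tower_top
    exact minpoly.mem_range_of_degree_eq_one K _
      (IsAlgClosed.degree_eq_one_of_irreducible K (minpoly.irreducible hint))
  choose z hz using hmem
  refine ⟨{ toFun := z, map_one' := e.injective (by rw [hz]; simp)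
            map_mul' := fun a b => e.injective (by rw [hz, map_mul, map_mul, hz, hz]; rfl)
            map_zero' := e.injective (by rw [hz]; simp)
            map_add' := fun a b => e.injective (by rw [hz, map_add, map_add, hz, hz]; rfl) },
    fun ℓ hℓ => ?_⟩
  show e (z _) = _
  rw [hz, hχ]

omit [IsDomain O] [FaithfulSMul O K] in
/-- **Separation.** -/
theorem exists_separator (S₀ : Finset ℕ) (a : ℕ → O) :
    ∃ J : Finset (ℕ × O[X]), (∀ j ∈ J, j.1.Prime ∧ j.1 ∉ S₀ ∧ j.2.eval (a j.1) ≠ 0) ∧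
      ∀ (S : Finset ℕ) (c : ℕ → K), S₀ ⊆ S → (∀ j ∈ J, j.1 ∉ S) → IsLevelSystem N S c →
        (∀ ℓ : ℕ, ℓ.Prime → ℓ ∉ S → c ℓ = algebraMap O K (a ℓ)) ∨
          ∃ j ∈ J, aeval (c j.1) j.2 = 0 := by
  classical
  haveI : Module.Finite ℤ (FullHecke N) := IntegralStructure.heckeAlgebra_finite N 2 ∅
  haveI := finite_ringHom (A := FullHecke N) (K := K)
  haveI := Fintype.ofFinite (FullHecke N →+* K)
  let bad : Finset (FullHecke N →+* K) := Finset.univ.filter fun ψ =>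
    ∃ ℓ, ∃ hℓ : ℓ.Prime, ℓ ∉ S₀ ∧ ψ (HeckeDuality.heckeOp N 2 ℓ hℓ) ≠ algebraMap O K (a ℓ)
  have key : ∀ ψ : bad, ∃ (ℓ : ℕ) (hℓ : ℓ.Prime) (Q : O[X]), ℓ ∉ S₀ ∧ Q.eval (a ℓ) ≠ 0 ∧
      aeval (ψ.1 (HeckeDuality.heckeOp N 2 ℓ hℓ)) Q = 0 := by
    rintro ⟨ψ, hψ⟩
    obtain ⟨ℓ, hℓ, hℓS, hne⟩ := (Finset.mem_filter.1 hψ).2
    set z := ψ (HeckeDuality.heckeOp N 2 ℓ hℓ)
    have hint : IsIntegral ℤ z := (Algebra.IsIntegral.isIntegral (R := ℤ) _).map ψ.toIntAlgHom
    set P : O[X] := (minpoly ℤ z).map (Int.castRingHom O)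
    have hP : P ≠ 0 := ((minpoly.monic hint).map _).ne_zero
    have hz : aeval z P = 0 := by
      rw [show P = (minpoly ℤ z).map (algebraMap ℤ O) from
        congrArg (fun f => (minpoly ℤ z).map f) (RingHom.ext_int _ _), aeval_map_algebraMap,
        minpoly.aeval]
    obtain ⟨Q, hQ, hQd⟩ := exists_eq_pow_rootMultiplicity_mul_and_not_dvd P hP (a ℓ)
    refine ⟨ℓ, hℓ, Q, hℓS, fun h => hQd (dvd_iff_isRoot.2 h), ?_⟩
    rw [hQ, map_mul, map_pow, map_sub, aeval_X, aeval_C, mul_eq_zero] at hz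
    exact hz.resolve_left (pow_ne_zero _ (sub_ne_zero.2 hne))
  choose ℓf hℓf Qf hS hval hzero using key
  refine ⟨Finset.univ.image fun ψ => (ℓf ψ, Qf ψ), fun j hj => ?_, fun S c hS₀ hJ hsys => ?_⟩
  · obtain ⟨ψ, -, rfl⟩ := Finset.mem_image.1 hj
    exact ⟨hℓf ψ, hS ψ, hval ψ⟩
  obtain ⟨g, e, hg, he, hgc⟩ := hsys
  obtain ⟨ψ, hψ⟩ := exists_character_of_system hg e
  have hc : ∀ ℓ (hℓ : ℓ.Prime), ℓ ∉ S → c ℓ = ψ (HeckeDuality.heckeOp N 2 ℓ hℓ) :=
    fun ℓ hℓ hℓS => he (by rw [hgc ℓ hℓ hℓS, hψ ℓ hℓ])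
  by_cases hb : ψ ∈ bad
  · have hmem : (ℓf ⟨ψ, hb⟩, Qf ⟨ψ, hb⟩) ∈ Finset.univ.image fun ψ : bad => (ℓf ψ, Qf ψ) :=
      Finset.mem_image_of_mem _ (Finset.mem_univ _)
    refine Or.inr ⟨_, hmem, ?_⟩
    show aeval (c (ℓf ⟨ψ, hb⟩)) (Qf ⟨ψ, hb⟩) = 0
    rw [hc _ (hℓf _) (hJ _ hmem)]
    exact hzero ⟨ψ, hb⟩
  · refine Or.inl fun ℓ hℓ hℓS => ?_
    rw [hc ℓ hℓ hℓS]
    by_contra hne
    exact hb (Finset.mem_filter.2 ⟨Finset.mem_univ _, ℓ, hℓ, fun h => hℓS (hS₀ h), hne⟩)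

/-- A form agreeing with a semistable curve outside a finite set gives modularity at the conductor
level. -/
theorem isModularModelOfLevel_of_agree (E : WeierstrassCurve ℤ) (hΔ : E.Δ ≠ 0)
    (h : ∃ (S : Finset ℕ) (g : CuspForm (CongruenceSubgroup.Gamma0 E.conductorLevel) 2),
      g.IsNormalizedEigenform ∧ ∀ ℓ : ℕ, ℓ.Prime → ℓ ∉ S → qCoeff g ℓ = (E.apOfModel ℓ : ℂ)) :
    E.IsModularModelOfLevel E.conductorLevel := by
  classical
  have h35 : ConductorLevel.NewformRepInput := fun {M} _ {g} hg lam _ S O' => S35.result hg lam S O'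
  obtain ⟨S, f, hf, hfE⟩ := h
  set L := E.conductorLevel
  have hL0 : L ≠ 0 := E.conductorLevel_pos.ne'
  have : NeZero L := ⟨hL0⟩
  obtain ⟨M, g, hML, hg, hgf⟩ := Newforms.exists_newform hf
  haveI : NeZero M := ⟨fun h => hL0 (by simpa [h] using hML)⟩
  let S₁ : Finset ℕ := insert 2 (S ∪ L.primeFactors)
  have hnot : ∀ ℓ : ℕ, ℓ.Prime → ℓ ∉ S₁ → ¬ ℓ ∣ L := fun ℓ hℓ h hd =>
    h (Finset.mem_insert_of_mem (Finset.mem_union_right _ (Nat.mem_primeFactors.2 ⟨hℓ, hd, hL0⟩)))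
  have hMS : ∀ q : ℕ, q.Prime → q ∣ M → q ∈ S₁ := fun q hq hd => by
    by_contra h
    exact hnot q hq h (hd.trans hML)
  have hS : ∀ ℓ : ℕ, ℓ.Prime → ℓ ∉ S₁ → E.IsGoodPrimeFor ℓ := fun ℓ hℓ h hd =>
    hnot ℓ hℓ h ((E.prime_dvd_conductorLevel_iff hΔ hℓ).2 hd)
  have hgW : ∀ ℓ : ℕ, ℓ.Prime → ℓ ∉ S₁ → qCoeff g ℓ = (E.apOfModel ℓ : ℂ) := fun ℓ hℓ h => by
    rw [hgf ℓ hℓ (hnot ℓ hℓ h), hfE ℓ hℓ fun hh =>
      h (Finset.mem_insert_of_mem (Finset.mem_union_left _ hh))]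
  obtain ⟨f', hf', hfg⟩ := ConductorLevel.exists_raise E.squarefree_conductorLevel hML hg.1
  refine ⟨f', hf', fun q hq hgood hqL => ?_⟩
  rw [hfg q hq hqL]
  exact ConductorLevel.qCoeff_eq_of_good h35 hΔ hg hMS hS hgW hq hgood
    fun hd => hqL (hd.trans hML)

end Fermat.Agent.RT.Two

end
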