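import Fermat.Agent.RT.Two.Lift.Coeff
import Fermat.Agent.GaloisReps.CoeffExt
import Fermat.Agent.GaloisReps.Unconditional
import Fermat.Agent.GaloisReps.Results
import Fermat.Agent.GaloisReps.Attach
import Fermat.Agent.ConductorLevel.Compare
import Fermat.Agent.IntegralStructure.Main

/-!
# The coefficient ring of a form congruent modulo two, and its representation
-/

set_option autoImplicit false
set_option linter.style.haveILetI false

noncomputable section

namespace Fermat.Agent.RT.Two.Lift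

open IsLocalRing Cardinal ModularFormClass
open Fermat.Agent.GaloisReps (FullHecke HeckeGaloisModel modelOfCongruence congruenceProperty
  exists_eigenform_character)

variable {N : ℕ} [NeZero N]

/-- **Coefficients.** A complete discrete valuation ring receiving the Hecke algebra through the
given form, compatibly with the given congruences, containing the roots of the Frobenius
quadratics, and embedded in `ℂ`. -/
theorem exists_coefficients {g : CuspForm (CongruenceSubgroup.Gamma0 N) 2}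
    (hg : g.IsNormalizedEigenform) (𝔪 : Ideal (integralClosure ℤ ℂ)) (h𝔪 : 𝔪.IsMaximal)
    (h2 : ((2 : ℕ) : integralClosure ℤ ℂ) ∈ 𝔪) (G : ℕ → Prop) (a : ℕ → ℕ)
    (hcong : ∀ l, l.Prime → G l → ∃ c : integralClosure ℤ ℂ,
      (c : ℂ) = qCoeff g l ∧ c - ((a l : ℤ) : integralClosure ℤ ℂ) ∈ 𝔪) :
    ∃ (O : Type) (_ : CommRing O) (_ : IsDomain O) (_ : IsDiscreteValuationRing O)
      (_ : IsAdicComplete (maximalIdeal O) O) (_ : Finite (ResidueField O)) (_ : CharZero O)
      (_ : Algebra (ZMod 2) (ResidueField O)),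
      (2 : O) ∈ maximalIdeal O ∧ (∃ ω : ResidueField O, ω ^ 2 + ω + 1 = 0) ∧
      ∃ (χ : FullHecke N →+* O) (e : O →+* ℂ), Function.Injective e ∧
        (∀ l (hl : l.Prime), e (χ (HeckeDuality.heckeOp N 2 l hl)) = qCoeff g l) ∧
        (∀ l (hl : l.Prime), G l →
          residue O (χ (HeckeDuality.heckeOp N 2 l hl)) = ((a l : ℕ) : ResidueField O)) ∧
        ∀ (s : FullHecke N) (d : ℕ), ∃ x : O, x ^ 2 - χ s * x + (d : O) = 0 := by
  classical
  haveI : Module.Finite ℤ (FullHecke N) := IntegralStructure.heckeAlgebra_finite N 2 ∅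
  haveI := h𝔪
  letI : Field (integralClosure ℤ ℂ ⧸ 𝔪) := Ideal.Quotient.field 𝔪
  obtain ⟨θg, hθg⟩ := exists_eigenform_character hg
  set R := θg.range
  haveI : Module.Finite ℤ R :=
    Module.Finite.of_surjective θg.rangeRestrict.toIntAlgHom.toLinearMap θg.rangeRestrict_surjective
  haveI : CharZero R := ⟨fun m n h => Nat.cast_injective (R := ℂ)
    (by simpa using congrArg (fun x : R => ((x : integralClosure ℤ ℂ) : ℂ)) h)⟩
  haveI : IsAddTorsionFree R := IsAddTorsionFree.of_isCancelMulZero_charZero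
  let F := AlgebraicClosure (integralClosure ℤ ℂ ⧸ 𝔪)
  haveI : CharP (integralClosure ℤ ℂ ⧸ 𝔪) 2 := (CharP.charP_iff_prime_eq_zero Nat.prime_two).mpr (by
    rw [← map_natCast (Ideal.Quotient.mk 𝔪), Ideal.Quotient.eq_zero_iff_mem]
    exact h2)
  haveI : CharP F 2 :=
    charP_of_injective_algebraMap (algebraMap (integralClosure ℤ ℂ ⧸ 𝔪) F).injective 2
  let θbar : R →+* F :=
    ((algebraMap (integralClosure ℤ ℂ ⧸ 𝔪) F).comp (Ideal.Quotient.mk 𝔪)).comp R.subtype
  obtain ⟨O₁, i1, i2, i3, i4, i5, i6, hp₁, θ₁, ψ, hψ⟩ := GaloisReps.exists_lift_char (p := 2) θbar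
  have hθ₁ : Function.Injective θ₁ := by
    rw [RingHom.injective_iff_ker_eq_bot]
    haveI : (RingHom.ker θ₁).IsPrime := RingHom.ker_isPrime θ₁
    refine Ideal.eq_bot_of_comap_eq_bot (R := ℤ) ?_
    rw [eq_bot_iff]
    intro z hz
    rw [Ideal.mem_comap, RingHom.mem_ker, eq_intCast, map_intCast, Int.cast_eq_zero] at hz
    exact hz
  obtain ⟨O, j1, j2, j3, j4, j5, j6, j7, j8, j9, hinj, hroots⟩ := exists_quadratic_roots O₁
  have hmax : ∀ x ∈ maximalIdeal O₁, algebraMap O₁ O x ∈ maximalIdeal O := fun x hx =>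
    map_nonunit (algebraMap O₁ O) x hx
  have h2O : (2 : O) ∈ maximalIdeal O := by
    have := hmax _ hp₁
    rwa [map_natCast, Nat.cast_ofNat] at this
  haveI : CharP (ResidueField O) 2 := (CharP.charP_iff_prime_eq_zero Nat.prime_two).mpr (by
    rw [Nat.cast_ofNat, ← map_ofNat (residue O), residue_eq_zero_iff]
    exact h2O)
  letI : Algebra (ZMod 2) (ResidueField O) := ZMod.algebra _ 2
  refine ⟨O, j1, j2, j3, j4, j5, j6, inferInstance, h2O, ?_, ?_⟩
  · obtain ⟨x, hx⟩ := hroots (-1) 1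
    refine ⟨residue O x, ?_⟩
    have := congrArg (residue O) hx
    simpa using this
  -- the embedding
  set fR : R →+* AlgebraicClosure (FractionRing O) :=
    ((algebraMap O (AlgebraicClosure (FractionRing O))).comp (algebraMap O₁ O)).comp θ₁
  have hinjK : Function.Injective (algebraMap O (AlgebraicClosure (FractionRing O))) := by
    rw [IsScalarTower.algebraMap_eq O (FractionRing O), RingHom.coe_comp]
    exact (algebraMap (FractionRing O) _).injective.comp (IsFractionRing.injective O _)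
  have hfR : Function.Injective fR := (hinjK.comp hinj).comp hθ₁
  obtain ⟨ι⟩ := GaloisReps.exists_padicHom O (p := 2) (by simpa using h2O)
  obtain ⟨Φ₀⟩ := Glue.nonempty_ringEquiv_complex O ι
  haveI : Countable R := by
    obtain ⟨k, f, hf⟩ := Module.Finite.exists_fin' ℤ R
    exact hf.countable
  obtain ⟨Φ, hΦ⟩ := exists_ringEquiv_extend fR ((integralClosure ℤ ℂ).val.toRingHom.comp R.subtype)
    hfR (Subtype.val_injective.comp Subtype.val_injective)
    (by rw [Cardinal.mk_congr Φ₀.toEquiv, Cardinal.mk_complex]; exact Cardinal.aleph0_lt_continuum)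
    (Cardinal.mk_congr Φ₀.toEquiv)
  refine ⟨((algebraMap O₁ O).comp θ₁).comp θg.rangeRestrict,
    Φ.toRingHom.comp (algebraMap O _), Φ.injective.comp hinjK, fun l hl => ?_,
    fun l hl hG => ?_, fun s d => ?_⟩
  · exact (hΦ (θg.rangeRestrict _)).trans (hθg l hl)
  · obtain ⟨c, hc, hcm⟩ := hcong l hl hG
    set s := θg.rangeRestrict (HeckeDuality.heckeOp N 2 l hl)
    have hs : (s : integralClosure ℤ ℂ) = c := Subtype.ext ((hθg l hl).trans hc.symm)
    have h1 : ψ (residue O₁ (θ₁ s)) = ψ ((a l : ℕ) : ResidueField O₁) := by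
      rw [map_natCast]
      refine (RingHom.congr_fun hψ s).trans ?_
      show algebraMap _ F (Ideal.Quotient.mk 𝔪 (s : integralClosure ℤ ℂ)) = _
      rw [hs, ← map_natCast (algebraMap (integralClosure ℤ ℂ ⧸ 𝔪) F),
        ← map_natCast (Ideal.Quotient.mk 𝔪)]
      refine congrArg _ (Ideal.Quotient.eq.2 ?_)
      simpa using hcm
    have h3 : θ₁ s - ((a l : ℕ) : O₁) ∈ maximalIdeal O₁ := by
      rw [← residue_eq_zero_iff, map_sub, map_natCast, ψ.injective h1, sub_self]
    have := hmax _ h3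
    rw [map_sub, map_natCast, ← residue_eq_zero_iff, map_sub, map_natCast, sub_eq_zero] at this
    exact this
  · obtain ⟨x, hx⟩ := hroots (θ₁ (θg.rangeRestrict s)) (d : O₁)
    exact ⟨x, by simpa using hx⟩

/-- The representation of a character of the Hecke algebra. -/
theorem exists_rep {O : Type} [CommRing O] [IsDomain O] [IsDiscreteValuationRing O]
    [IsAdicComplete (maximalIdeal O) O] [Finite (ResidueField O)] [CharZero O]
    (h2 : (2 : O) ∈ maximalIdeal O) (χ : FullHecke N →+* O) :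
    ∃ ρ : GaloisRepAdic O, ∀ ℓ (hℓ : ℓ.Prime), ¬ ℓ ∣ N * 2 →
      ∀ A : ValuationSubring (AlgebraicClosure ℚ), A.LiesOverPrime ℓ →
        ∀ σ : AlgebraicClosure ℚ ≃ₐ[ℚ] AlgebraicClosure ℚ, A.IsFrobeniusAt σ ℓ →
          ρ.trace σ = χ (HeckeDuality.heckeOp N 2 ℓ hℓ) ∧ LinearMap.det (ρ.ρ σ) = (ℓ : O) := by
  haveI : Module.Finite ℤ (FullHecke N) := IntegralStructure.heckeAlgebra_finite N 2 ∅
  let D : HeckeGaloisModel N 2 := modelOfCongruence (congruenceProperty N 2)
  have hp : ((2 : ℕ) : O) ∈ maximalIdeal O := by simpa using h2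
  obtain ⟨ι⟩ := GaloisReps.exists_padicHom O hp
  refine ⟨D.rep ι χ hp, fun ℓ hℓ hℓN A hA σ hσ => ?_⟩
  have hch : LinearMap.charpoly ((D.rep ι χ hp).ρ σ) = _ :=
    D.charpoly_eigenAction_frobenius ι χ GaloisReps.frobeniusDensity hp hℓ hℓN hA hσ
  exact ⟨(ConductorLevel.trace_det_of_charpoly (D.rep ι χ hp).finrank_eq hch).1,
    (ConductorLevel.trace_det_of_charpoly (D.rep ι χ hp).finrank_eq hch).2⟩

end Fermat.Agent.RT.Two.Lift

end
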