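import Fermat.Agent.RT.Two.Lift.Level
import Fermat.Agent.RT.Two.Lift.System
import Fermat.Agent.RT.Two.Lift.Separate
import Fermat.Agent.RT.Two.Select.Finite
import Fermat.Agent.RT.Two.Select.Sigma
import Fermat.Agent.RT.Two.Select.Primes
import Fermat.Agent.RT.Two.Top

/-!
# Minimal lifting at two

A twin curve whose two-torsion occurs at its conductor level is modular of that level, from the
Hecke side, the tangent bound and the data of the curve.
-/

set_option autoImplicit false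
set_option linter.style.haveILetI false

noncomputable section

namespace Fermat.Agent.RT.Two

open IsLocalRing Polynomial WeierstrassCurve Fermat.Agent.Deform Fermat.Agent.Arith
  Fermat.Agent.CFT.Tangent
open Fermat.Agent.GaloisReps (FullHecke)

/-- The tangent bound at an auxiliary level. -/
def TangentInput : Prop :=
  ∀ (O : Type) [CommRing O] [IsDomain O] [IsDiscreteValuationRing O]
    [IsAdicComplete (maximalIdeal O) O] [Finite (ResidueField O)] [CharZero O]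
    [Algebra (ZMod 2) (ResidueField O)] (N m μ : ℕ) (T : TwoSetup O N m) (L : TwoLevel T μ),
    Select.IsResidualTwo T.r₂ N →
    (∀ d ∈ Select.classes (Local.extRep (ResidueField O) T.r₂) N,
      (∀ i, Select.phi (Local.extRep (ResidueField O) T.r₂) (T.F i) d = 0) →
        ∃ X : M2 (ResidueField O), d = cobdLin (Local.extRep (ResidueField O) T.r₂) X) →
    (∀ i, ∃ d ∈ Select.classes (Local.extRep (ResidueField O) T.r₂) N,
      ∀ j, Select.phi (Local.extRep (ResidueField O) T.r₂) (T.F j) d = if i = j then 1 else 0) →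
    ∀ rz : Fin m → O, (∀ i, residue O (rz i) = residue O (T.rE i)) →
      ∀ (o : Fin m → Bool) (b : L.B), ∃ c : O, b - algebraMap O L.B c ∈
        Ideal.span (Set.range fun i => L.X i - algebraMap O L.B (rz i)) ⊔
          Core.relations L.x L.y o

/-- What is used of a twin curve. -/
structure CurveData (E : WeierstrassCurve ℤ) : Type 1 where
  r₂ : GQ →* M2 (ZMod 2)
  residual : Select.IsResidualTwo r₂ E.conductorLevel
  three_mod_four : ∃ p : ℕ, p.Prime ∧ p ∣ E.conductorLevel ∧ p % 4 = 3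
  frobenius : ∀ ℓ : ℕ, ℓ.Prime → E.IsGoodPrimeFor ℓ → ℓ ≠ 2 → ∀ A : ValuationSubring QBar,
    A.LiesOverPrime ℓ → ∀ σ : GQ, A.IsFrobeniusAt σ ℓ →
      (r₂ σ).trace = (E.apOfModel ℓ : ZMod 2) ∧ (r₂ σ).det = 1
  rep : ∀ (O : Type) [CommRing O] [IsDomain O] [IsDiscreteValuationRing O]
    [IsAdicComplete (maximalIdeal O) O] [Finite (ResidueField O)] [CharZero O],
    (2 : O) ∈ maximalIdeal O → ∃ ρ : GaloisRepAdic O,
      (∀ ℓ : ℕ, ℓ.Prime → E.IsGoodPrimeFor ℓ → ℓ ≠ 2 → ∀ A : ValuationSubring QBar,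
        A.LiesOverPrime ℓ → ∀ σ : GQ, A.IsFrobeniusAt σ ℓ →
          ρ.trace σ = (E.apOfModel ℓ : O) ∧ LinearMap.det (ρ.ρ σ) = (ℓ : O)) ∧
      (∀ v : ℕ, v.Prime → ¬ v ∣ 2 * E.conductorLevel → ρ.IsUnramifiedAt v) ∧
      (∀ v : ℕ, v.Prime → v ∣ E.conductorLevel → ∀ A : ValuationSubring QBar, A.LiesOverPrime v →
        ∀ σ ∈ A.inertiaSubgroupIn ℚ, ρ.trace σ = 2 ∧ LinearMap.det (ρ.ρ σ) = 1) ∧
      ρ.IsFlatAt 2

/-- The input on twin curves. -/
def CurveInput : Prop := ∀ E : WeierstrassCurve ℤ, IsTwinCurve E → Nonempty (CurveData E)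

namespace Lift

theorem pow_dvd_choose_two_pow {n D j : ℕ} (hj : 1 ≤ j) (hjD : j ≤ D) (hDn : D < 2 ^ n) :
    2 ^ (n - D) ∣ (2 ^ n).choose j := by
  have h1 : ((2 ^ n).choose j).factorization 2 = n - j.factorization 2 :=
    Nat.factorization_choose_prime_pow Nat.prime_two (by omega) (by omega)
  have h2 : j.factorization 2 < j := Nat.factorization_lt 2 (by omega)
  refine (Nat.Prime.pow_dvd_iff_le_factorization Nat.prime_two
    (Nat.choose_pos (by omega)).ne').2 ?_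
  omega

theorem exists_not_pow_dvd {O : Type} [CommRing O] [IsDomain O] [IsDiscreteValuationRing O]
    {π x : O} (hπ : Irreducible π) (hx : x ≠ 0) : ∃ a : ℕ, ¬ π ^ (a + 1) ∣ x := by
  obtain ⟨m, u, rfl⟩ := IsDiscreteValuationRing.eq_unit_mul_pow_irreducible hx hπ
  refine ⟨m, fun h => ?_⟩
  rw [Units.dvd_mul_left, pow_dvd_pow_iff hπ.ne_zero hπ.not_isUnit] at h
  omega

theorem not_dvd_of_congr {O : Type} [CommRing O] {π x y : O} {a P : ℕ} (ha : a + 1 ≤ P)
    (h : Ideal.Quotient.mk (Ideal.span {π ^ P}) x = Ideal.Quotient.mk (Ideal.span {π ^ P}) y)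
    (hy : ¬ π ^ (a + 1) ∣ y) : ¬ π ^ (a + 1) ∣ x := fun hx => hy (by
  rw [Ideal.Quotient.eq, Ideal.mem_span_singleton] at h
  have := dvd_sub hx ((pow_dvd_pow π ha).trans h)
  rwa [sub_sub_cancel] at this)

theorem natAbs_cast_char_two {k : Type} [Field k] [Algebra (ZMod 2) k] (z : ℤ) :
    ((z.natAbs : ℕ) : k) = (z : k) := by
  haveI : CharP k 2 := charP_of_injective_algebraMap (algebraMap (ZMod 2) k).injective 2
  rcases Int.natAbs_eq z with h | h
  · conv_rhs => rw [h]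
    simp
  · conv_rhs => rw [h]
    simp [CharTwo.neg_eq]

variable {O : Type} [CommRing O] [IsDomain O] [IsDiscreteValuationRing O]
  [IsAdicComplete (maximalIdeal O) O] [Finite (ResidueField O)] [CharZero O]
  [Algebra (ZMod 2) (ResidueField O)] {N : ℕ} {T : TwoSetup O N 0} {μ : ℕ}

/-- The matrices of a point of the base level. -/
def baseRep (L : TwoLevel T μ) (θ : L.B →ₐ[O] O) : GQ →* M2 O :=
  mapM (θ : L.B →+* O) L.R

omit [IsAdicComplete (maximalIdeal O) O] [Finite (ResidueField O)] [CharZero O] in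
theorem baseRep_map (L : TwoLevel T μ) (θ : L.B →ₐ[O] O) (σ : GQ) :
    (baseRep L θ σ).map (residue O) = Local.extRep (ResidueField O) T.r₂ σ := by
  refine Eq.trans ?_ (L.R_aug σ)
  ext i j
  exact L.residue_point θ _

omit [IsAdicComplete (maximalIdeal O) O] [Finite (ResidueField O)] [CharZero O] in
theorem trace_baseRep (L : TwoLevel T μ) (θ : L.B →ₐ[O] O) (σ : GQ) :
    (baseRep L θ σ).trace = θ (L.R σ).trace :=
  (AddMonoidHom.map_trace (θ : L.B →+* O).toAddMonoidHom (L.R σ)).symm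

omit [IsAdicComplete (maximalIdeal O) O] [Finite (ResidueField O)] [CharZero O] in
theorem det_baseRep (L : TwoLevel T μ) (θ : L.B →ₐ[O] O) (σ : GQ) :
    (baseRep L θ σ).det = θ (L.R σ).det :=
  ((θ : L.B →+* O).map_det (L.R σ)).symm

omit [IsAdicComplete (maximalIdeal O) O] [Finite (ResidueField O)] [CharZero O] in
theorem baseRep_unipotent (L : TwoLevel T μ) (θ : L.B →ₐ[O] O) (v : ℕ) (hv : v.Prime) (hvN : v ∣ N)
    (A : ValuationSubring QBar) (hA : A.LiesOverPrime v) (τ : GQ)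
    (hτ : τ ∈ A.inertiaSubgroupIn ℚ) :
    (baseRep L θ τ).trace = 2 ∧ (baseRep L θ τ).det = 1 := by
  rw [trace_baseRep, det_baseRep, (L.unipotent v hv hvN A hA τ hτ).1,
    (L.unipotent v hv hvN A hA τ hτ).2, map_ofNat, map_one]
  exact ⟨rfl, rfl⟩

omit [IsAdicComplete (maximalIdeal O) O] [Finite (ResidueField O)] [CharZero O] in
/-- At the base level the determinant is one on the elements fixing two-power roots of unity. -/
theorem det_baseRep_eq_one (L : TwoLevel T μ) (θ : L.B →ₐ[O] O) (h2 : (2 : O) ∈ maximalIdeal O)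
    {σ : GQ} (hσ : σ ∈ Select.fixTwo) : (baseRep L θ σ).det = 1 := by
  have h1 : ∀ k : ℕ, (2 : L.B) ^ k ∣ (L.R σ).det - 1 := fun k => by
    have := L.det_congr σ (fun μ' hμ' => by simp_all) k 1
      (fun μ' hμ' => by rw [pow_one]; exact Select.mem_fixTwo.1 hσ k μ' hμ')
    rw [Nat.cast_one] at this
    exact Ideal.mem_span_singleton.1 this
  rw [det_baseRep, ← sub_eq_zero]
  refine IsHausdorff.haus' (I := maximalIdeal O) _ fun k => ?_
  rw [SModEq.zero, smul_eq_mul, Ideal.mul_top]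
  have h3 := map_dvd θ (h1 k)
  rw [map_pow, map_ofNat, map_sub, map_one] at h3
  exact Ideal.mem_of_dvd _ h3 (Ideal.pow_mem_pow h2 k)

end Lift

open _root_.Fermat.Agent.RT.Two.Lift in
/-- **Minimal lifting at two.** -/
theorem liftTwo_of_inputs
    (hH : ∀ (O : Type) [CommRing O] [IsDomain O] [IsDiscreteValuationRing O]
      [IsAdicComplete (maximalIdeal O) O] [Finite (ResidueField O)] [CharZero O]
      [Algebra (ZMod 2) (ResidueField O)], HeckeSideInput O)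
    (hT : TangentInput) (hC : CurveInput) : LiftTwoInput := by
  classical
  intro E hE hseed
  by_contra hmod
  obtain ⟨data⟩ := hC E hE
  set N := E.conductorLevel with hN
  obtain ⟨g, hg, 𝔪, h𝔪, h2𝔪, hcong⟩ := hseed
  haveI : NeZero N := ⟨E.conductorLevel_pos.ne'⟩
  obtain ⟨O, i1, i2, i3, i4, i5, i6, i7, h2O, hω, χ, e, he, heg, hχres, hroots⟩ :=
    exists_coefficients hg 𝔪 h𝔪 h2𝔪 (GoodOdd E) (parityAp E) hcong
  obtain ⟨ρE, hρEf, hρEu, hρEp, hρEflat⟩ := data.rep O h2O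
  obtain ⟨ρg, hρg⟩ := exists_rep h2O χ
  set k := ResidueField O
  haveI : CharP k 2 := charP_of_injective_algebraMap (algebraMap (ZMod 2) k).injective 2
  let a₀ : ℕ → O := fun ℓ => if hℓ : ℓ.Prime then χ (HeckeDuality.heckeOp N 2 ℓ hℓ) else 0
  let S₀ : Finset ℕ := {2, 3} ∪ N.primeFactors
  have hS₀ : ∀ ℓ : ℕ, ℓ.Prime → ℓ ∉ S₀ → E.IsGoodPrimeFor ℓ ∧ ℓ ≠ 2 ∧ ¬ ℓ ∣ N * 2 := by
    intro ℓ hℓ hℓS
    simp only [S₀, Finset.mem_union, Finset.mem_insert, Finset.mem_singleton,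
      Nat.mem_primeFactors, not_or, not_and] at hℓS
    have hndvd : ¬ ℓ ∣ N := fun hd => hℓS.2 hℓ hd (NeZero.ne N)
    refine ⟨fun hd => hndvd ((E.prime_dvd_conductorLevel_iff hE.Δ_ne_zero hℓ).2 hd), hℓS.1.1,
      fun hd => (hℓ.dvd_mul.1 hd).elim hndvd fun h =>
        hℓS.1.1 ((Nat.prime_dvd_prime_iff_eq hℓ Nat.prime_two).1 h)⟩
  have hsys : ∀ S : Finset ℕ, IsLevelSystem N S a₀ := fun S =>
    ⟨g, e, hg, he, fun ℓ hℓ _ => by simp only [a₀, dif_pos hℓ]; exact heg ℓ hℓ⟩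
  have hres : ∀ ℓ : ℕ, ℓ.Prime → ℓ ∉ S₀ → residue O (a₀ ℓ) = (E.apOfModel ℓ : k) := by
    intro ℓ hℓ hℓS
    simp only [a₀, dif_pos hℓ]
    rw [hχres ℓ hℓ ⟨(hS₀ ℓ hℓ hℓS).1, (hS₀ ℓ hℓ hℓS).2.1⟩]
    exact natAbs_cast_char_two _
  have hρ₀ : ∀ ℓ : ℕ, ℓ.Prime → ℓ ∉ S₀ → ∀ A : ValuationSubring QBar, A.LiesOverPrime ℓ →
      ∀ σ : GQ, A.IsFrobeniusAt σ ℓ →
        ρg.trace σ = a₀ ℓ ∧ LinearMap.det (ρg.ρ σ) = (ℓ : O) := fun ℓ hℓ hℓS A hA σ hσ => by
    simp only [a₀, dif_pos hℓ]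
    exact hρg ℓ hℓ (hS₀ ℓ hℓ hℓS).2.2 A hA σ hσ
  have hρE : ∀ ℓ : ℕ, ℓ.Prime → ℓ ∉ S₀ → ∀ A : ValuationSubring QBar, A.LiesOverPrime ℓ →
      ∀ σ : GQ, A.IsFrobeniusAt σ ℓ →
        ρE.trace σ = (E.apOfModel ℓ : O) ∧ LinearMap.det (ρE.ρ σ) = (ℓ : O) :=
    fun ℓ hℓ hℓS A hA σ hσ => hρEf ℓ hℓ (hS₀ ℓ hℓ hℓS).1 (hS₀ ℓ hℓ hℓS).2.1 A hA σ hσ
  -- the setup with given auxiliary primes
  have mkSetup : ∀ (r n : ℕ) (q : Fin r → ℕ) (A : Fin r → ValuationSubring QBar) (F : Fin r → GQ),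
      Function.Injective q → (∀ i, (q i).Prime) → (∀ i, q i ∉ S₀) →
      (∀ i, 2 ^ (n + 3) ∣ q i - 1) → (∀ i, (A i).LiesOverPrime (q i)) →
      (∀ i, (A i).IsFrobeniusAt (F i) (q i)) → (∀ i, ∀ c : ZMod 2, data.r₂ (F i) ≠ c • 1) →
      ∃ T : TwoSetup O N r, T.n = n ∧ T.q = q ∧ T.A = A ∧ T.F = F ∧
        T.S = S₀ ∪ Finset.univ.image q ∧ T.r₂ = data.r₂ ∧ T.aE = E.apOfModel ∧ T.ρE = ρE := by
    intro r n q A F hinj hqp hqS hdvd hA hF hns
    have hroot : ∀ i, ∃ x : O, x ^ 2 - ρE.trace (F i) * x + LinearMap.det (ρE.ρ (F i)) = 0 := by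
      intro i
      obtain ⟨x, hx⟩ := hroots ((E.apOfModel (q i) : ℤ) : FullHecke N) (q i)
      refine ⟨x, ?_⟩
      obtain ⟨h1, h2⟩ := hρE (q i) (hqp i) (hqS i) (A i) (hA i) (F i) (hF i)
      rw [h1, h2]
      rwa [map_intCast] at hx
    choose rE hrE using hroot
    refine ⟨{
      n := n
      squarefree := E.squarefree_conductorLevel
      odd := data.residual.odd
      exists_three_mod_four := data.three_mod_four
      two_mem := h2O
      exists_omega := hω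
      q := q
      q_injective := hinj
      q_prime := hqp
      q_not_dvd := fun i hd => (hS₀ (q i) (hqp i) (hqS i)).2.2 (dvd_mul_of_dvd_left hd 2)
      q_congr := hdvd
      S := S₀ ∪ Finset.univ.image q
      mem_S := fun v hv hd => by
        rcases hv.dvd_mul.1 hd with h | h
        · have : v = 2 ∨ v = 3 := by
            rcases hv.dvd_mul.1 (show v ∣ 2 * 3 from h) with h | h
            · exact Or.inl ((Nat.prime_dvd_prime_iff_eq hv Nat.prime_two).1 h)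
            · exact Or.inr ((Nat.prime_dvd_prime_iff_eq hv Nat.prime_three).1 h)
          exact Finset.mem_union_left _ (Finset.mem_union_left _ (by simpa using this))
        rcases hv.dvd_mul.1 h with h | h
        · exact Finset.mem_union_left _ (Finset.mem_union_right _
            (Nat.mem_primeFactors.2 ⟨hv, h, NeZero.ne N⟩))
        · obtain ⟨i, -, hi⟩ := (Prime.dvd_finsetProd_iff hv.prime _).1 h
          exact Finset.mem_union_right _ (Finset.mem_image.2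
            ⟨i, Finset.mem_univ i, ((Nat.prime_dvd_prime_iff_eq hv (hqp i)).1 hi).symm⟩)
      r₂ := data.r₂
      r₂_span := data.residual.span
      r₂_finite := data.residual.ss.finite
      r₂_unramified := data.residual.unramified
      aE := E.apOfModel
      r₂_frobenius := fun ℓ hℓ hℓS => data.frobenius ℓ hℓ
        (hS₀ ℓ hℓ fun h => hℓS (Finset.mem_union_left _ h)).1
        (hS₀ ℓ hℓ fun h => hℓS (Finset.mem_union_left _ h)).2.1
      ρE := ρE
      ρE_frobenius := fun ℓ hℓ hℓS => hρE ℓ hℓ fun h => hℓS (Finset.mem_union_left _ h)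
      ρE_unramified := hρEu
      ρE_unipotent := hρEp
      ρE_flat := hρEflat
      A := A
      liesOver := hA
      F := F
      isFrobenius := hF
      F_nonscalar := hns
      rE := rE
      rE_root := hrE }, rfl, rfl, rfl, rfl, rfl, rfl, rfl, rfl⟩
  -- the base level
  obtain ⟨T₀, hT₀n, -, -, -, hT₀S, hT₀r, hT₀a, hT₀E⟩ := mkSetup 0 0 Fin.elim0 Fin.elim0 Fin.elim0
    (fun i => i.elim0) (fun i => i.elim0) (fun i => i.elim0) (fun i => i.elim0) (fun i => i.elim0)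
    (fun i => i.elim0) (fun i => i.elim0)
  replace hT₀S : T₀.S = S₀ := by rw [hT₀S]; simp
  obtain ⟨μ₀, hμ₀⟩ := hH O N 0
  obtain ⟨L₀⟩ := hμ₀ T₀
  obtain ⟨θg, hθgt, -, -, -, -⟩ := L₀.occurs a₀ (hsys _)
    (fun ℓ hℓ hℓS => by rw [hT₀a]; exact hres ℓ hℓ (hT₀S ▸ hℓS)) ρg
    (fun ℓ hℓ hℓS => hρ₀ ℓ hℓ (hT₀S ▸ hℓS)) Fin.elim0 (fun i => i.elim0) (fun i => i.elim0)
  let θj : Bool → (L₀.B →ₐ[O] O) := fun j => bif j then θg else L₀.θE
  let ρb : Bool → GQ →* M2 O := fun j => baseRep L₀ (θj j)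
  let aj : Bool → ℕ → O := fun j => bif j then a₀ else fun ℓ => (E.apOfModel ℓ : O)
  have haj : ∀ j ℓ, ℓ.Prime → ℓ ∉ S₀ → θj j (L₀.t ℓ) = aj j ℓ := by
    intro j ℓ hℓ hℓS
    cases j
    · show L₀.θE (L₀.t ℓ) = _
      rw [L₀.θE_t ℓ hℓ (hT₀S ▸ hℓS), hT₀a]
      rfl
    · exact hθgt ℓ hℓ (hT₀S ▸ hℓS)
  -- the detecting elements
  have hR : Select.IsResidualTwo data.r₂ N := data.residual
  obtain ⟨m, σ, hσ, hdet, hdual⟩ := Select.exists_sigma hR (residue O) ρb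
    (fun j s => by rw [← hT₀r]; exact baseRep_map L₀ (θj j) s)
    (fun j => baseRep_unipotent L₀ (θj j))
  obtain ⟨μ, hμ⟩ := hH O N m
  obtain ⟨π, hπ⟩ := IsDiscreteValuationRing.exists_irreducible O
  set Kb := AlgebraicClosure (FractionRing O)
  haveI : CharZero Kb := charZero_of_injective_algebraMap (R := FractionRing O)
    (algebraMap (FractionRing O) Kb).injective
  haveI : FaithfulSMul O Kb := (faithfulSMul_iff_algebraMap_injective O Kb).2 (by
    rw [IsScalarTower.algebraMap_eq O (FractionRing O), RingHom.coe_comp]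
    exact (algebraMap (FractionRing O) _).injective.comp (IsFractionRing.injective O _))
  -- separation
  obtain ⟨JE, hJE, hsepE⟩ := exists_separator (K := Kb) (N := N) S₀ fun ℓ => (E.apOfModel ℓ : O)
  obtain ⟨J₀, hJ₀, hsep₀⟩ := exists_separator (K := Kb) (N := N) S₀ a₀
  -- the expected values
  let u : Bool → Fin m → O := fun j i => (ρb j (σ i)).trace
  have hu : ∀ j i, u j i ^ 2 - 4 ≠ 0 := fun j i => by
    have := (hσ i).2.2 j
    rwa [det_baseRep_eq_one L₀ (θj j) h2O (hσ i).1, mul_one] at this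
  set XE : O := (∏ i, (u false i ^ 2 - 4) * (u false i ^ 2 - 4)) *
    ∏ j ∈ JE, j.2.eval (E.apOfModel j.1 : O) with hXE
  have hXE0 : XE ≠ 0 := mul_ne_zero
    (Finset.prod_ne_zero_iff.2 fun i _ => mul_ne_zero (hu _ i) (hu _ i))
    (Finset.prod_ne_zero_iff.2 fun j hj => (hJE j hj).2.2)
  set V₀ : O := (∏ i, (u true i ^ 2 - 4) * (u true i ^ 2 - 4)) ^ 2 *
    ((∏ j ∈ J₀, j.2.eval (a₀ j.1)) ^ 2 * ∏ i, (u true i ^ 2 - 4)) with hV₀
  set X₀ : O := V₀ * (V₀ ^ (m + 1) * (∏ i, (u true i ^ 2 - 4)) ^ 2) with hX₀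
  have hprod : (∏ i, (u true i ^ 2 - 4)) ≠ 0 := Finset.prod_ne_zero_iff.2 fun i _ => hu _ i
  have hV₀0 : V₀ ≠ 0 := mul_ne_zero
    (pow_ne_zero _ (Finset.prod_ne_zero_iff.2 fun i _ => mul_ne_zero (hu _ i) (hu _ i)))
    (mul_ne_zero (pow_ne_zero _ (Finset.prod_ne_zero_iff.2 fun j hj => (hJ₀ j hj).2.2)) hprod)
  obtain ⟨a, ha⟩ := exists_not_pow_dvd hπ hXE0
  obtain ⟨b, hb⟩ := exists_not_pow_dvd hπ (x := X₀)
    (mul_ne_zero hV₀0 (mul_ne_zero (pow_ne_zero _ hV₀0) (pow_ne_zero _ hprod)))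
  set D := m + μ * a
  set K := μ * a + Core.expBound m (μ * a) * b + 1
  set P := a + b + 1
  set n := K + D + P
  -- the neighbourhood
  set r := Local.extRep k data.r₂ with hr
  haveI : Finite (Select.classes r N) := Select.finite_classes hR
  choose Lc hLc hLc0 using fun d : Select.classes r N => d.2.1.2.1
  haveI : ∀ d, FiniteDimensional ℚ (Lc d) := hLc
  obtain ⟨F₂, hF₂, hr₂⟩ := hR.ss.finite
  obtain ⟨F₁, hF₁, hlev⟩ := L₀.cont P
  haveI := hF₂
  haveI := hF₁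
  haveI : FiniteDimensional ℚ (⨆ d, Lc d : IntermediateField ℚ QBar) :=
    IntermediateField.finiteDimensional_iSup_of_finite
  set Lall : IntermediateField ℚ QBar := F₁ ⊔ (F₂ ⊔ ⨆ d, Lc d) with hLall
  haveI : FiniteDimensional ℚ Lall := inferInstance
  let avoid : Finset ℕ := S₀ ∪ JE.image Prod.fst ∪ J₀.image Prod.fst
  obtain ⟨q, A, F, hqinj, hq⟩ := Select.exists_primes σ (fun i => (hσ i).1)
    (IntermediateField.fixingSubgroup_isOpen Lall) avoid n
  choose hqp hqS hqd hqA hqF hqV using hq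
  have hqS₀ : ∀ i, q i ∉ S₀ := fun i h =>
    hqS i (Finset.mem_union_left _ (Finset.mem_union_left _ h))
  have hFu : ∀ i, ∃ w : GQ, F i = σ i * w ∧ (∀ x ∈ F₁, w x = x) ∧ data.r₂ w = 1 ∧
      ∀ d : Select.classes r N, (d : GQ → M2 k) w = 0 := fun i => by
    have hw : ∀ x ∈ Lall, ((σ i)⁻¹ * F i) x = x :=
      (IntermediateField.mem_fixingSubgroup_iff _ _).1 (hqV i)
    refine ⟨(σ i)⁻¹ * F i, (mul_inv_cancel_left _ _).symm, fun x hx => hw x (le_sup_left (α :=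
      IntermediateField ℚ QBar) hx), hr₂ _ fun x hx => hw x ?_, fun d => hLc0 d _ fun x hx => hw x ?_⟩
    · exact (le_sup_right : F₂ ⊔ ⨆ d, Lc d ≤ Lall) ((le_sup_left : F₂ ≤ _) hx)
    · exact (le_sup_right : F₂ ⊔ ⨆ d, Lc d ≤ Lall)
        ((le_sup_right : (⨆ d, Lc d) ≤ F₂ ⊔ ⨆ d, Lc d) (le_iSup Lc d hx))
  have hrF : ∀ i, data.r₂ (F i) = data.r₂ (σ i) := fun i => by
    obtain ⟨w, hw, -, hw1, -⟩ := hFu i
    rw [hw, map_mul, hw1, mul_one]
  have hphi : ∀ i, ∀ d ∈ Select.classes r N,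
      Select.phi r (F i) d = Select.phi r (σ i) d := fun i d hd => by
    obtain ⟨w, hw, -, hw1, hwd⟩ := hFu i
    rw [Select.phi_apply, Select.phi_apply, hw, hd.1.1,
      show d w = 0 from hwd ⟨d, hd⟩, mul_zero, zero_mul, zero_add,
      map_mul, show r w = 1 from Local.extRep_eq_one hw1, mul_one]
  obtain ⟨T, hTn, hTq, hTA, hTF, hTS, hTr, hTa, hTE⟩ := mkSetup m n q A F hqinj hqp hqS₀ hqd hqA hqF
    (fun i c => by rw [hrF]; exact (hσ i).2.1 c)
  obtain ⟨L⟩ := hμ T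
  -- the values at the auxiliary primes
  set mk := Ideal.Quotient.mk (Ideal.span {π ^ P})
  have hmax : ∀ x ∈ maximalIdeal O ^ P, mk x = 0 := fun x hx => by
    rw [hπ.maximalIdeal_eq, Ideal.span_singleton_pow] at hx
    exact Ideal.Quotient.eq_zero_iff_mem.2 hx
  have htwo : π ∣ (2 : O) := Ideal.mem_span_singleton.1 (hπ.maximalIdeal_eq ▸ h2O)
  have hqone : ∀ i, mk (q i : O) = 1 := fun i => by
    obtain ⟨c, hc⟩ := hqd i
    have e : q i = 2 ^ (n + 3) * c + 1 := by have := (hqp i).one_lt; omega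
    rw [e, Nat.cast_add, Nat.cast_mul, Nat.cast_pow, Nat.cast_one, map_add, map_one, map_mul,
      Nat.cast_ofNat]
    have : mk ((2 : O) ^ (n + 3)) = 0 := Ideal.Quotient.eq_zero_iff_mem.2
      (Ideal.mem_span_singleton.2 ((pow_dvd_pow π (by omega)).trans (pow_dvd_pow_of_dvd htwo _)))
    rw [this, zero_mul, zero_add]
  have htr : ∀ j i, mk (aj j (q i)) = mk (u j i) := by
    intro j i
    obtain ⟨w, hw, hw1, -, -⟩ := hFu i
    have h1 : aj j (q i) = θj j (L₀.R (F i)).trace := by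
      rw [L₀.frobenius (q i) (hqp i) (hT₀S ▸ hqS₀ i) (A i) (hqA i) (F i) (hqF i),
        haj j (q i) (hqp i) (hqS₀ i)]
    have hlev' : ∀ i' j', L₀.R w i' j' - (1 : M2 L₀.B) i' j' ∈ maximalIdeal L₀.B ^ P := hlev w hw1
    have h2 : (L₀.R (F i)).trace - (L₀.R (σ i)).trace ∈ maximalIdeal L₀.B ^ P := by
      rw [hw, map_mul, Matrix.trace_fin_two, Matrix.trace_fin_two]
      simp only [Matrix.mul_apply, Fin.sum_univ_two]
      have e : L₀.R (σ i) 0 0 * L₀.R w 0 0 + L₀.R (σ i) 0 1 * L₀.R w 1 0 +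
          (L₀.R (σ i) 1 0 * L₀.R w 0 1 + L₀.R (σ i) 1 1 * L₀.R w 1 1) -
          (L₀.R (σ i) 0 0 + L₀.R (σ i) 1 1) =
          L₀.R (σ i) 0 0 * (L₀.R w 0 0 - (1 : M2 L₀.B) 0 0) +
            L₀.R (σ i) 0 1 * (L₀.R w 1 0 - (1 : M2 L₀.B) 1 0) +
          (L₀.R (σ i) 1 0 * (L₀.R w 0 1 - (1 : M2 L₀.B) 0 1) +
            L₀.R (σ i) 1 1 * (L₀.R w 1 1 - (1 : M2 L₀.B) 1 1)) := by
        simp only [Matrix.one_apply_eq, Matrix.one_apply_ne (by decide : (1 : Fin 2) ≠ 0),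
          Matrix.one_apply_ne (by decide : (0 : Fin 2) ≠ 1)]
        ring
      rw [e]
      exact add_mem (add_mem (Ideal.mul_mem_left _ _ (hlev' 0 0)) (Ideal.mul_mem_left _ _ (hlev' 1 0)))
        (add_mem (Ideal.mul_mem_left _ _ (hlev' 0 1)) (Ideal.mul_mem_left _ _ (hlev' 1 1)))
    rw [h1, show u j i = θj j (L₀.R (σ i)).trace from trace_baseRep L₀ (θj j) (σ i), ← sub_eq_zero,
      ← map_sub]
    exact hmax _ (map_sub (θj j) _ _ ▸ L₀.point_maximalIdeal (θj j) P h2)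
  have hFE : ∀ i, T.ρE.trace (T.F i) = aj false (q i) ∧
      LinearMap.det (T.ρE.ρ (T.F i)) = (q i : O) := fun i => by
    rw [hTE, hTF]
    exact hρE (q i) (hqp i) (hqS₀ i) (A i) (hqA i) (F i) (hqF i)
  have hFg : ∀ i, ρg.trace (T.F i) = aj true (q i) ∧
      LinearMap.det (ρg.ρ (T.F i)) = (q i : O) := fun i => by
    rw [hTF]
    exact hρ₀ (q i) (hqp i) (hqS₀ i) (A i) (hqA i) (F i) (hqF i)
  have hmkv : ∀ (i : Fin m) (t : O), mk (T.vVal i t (q i : O)) = mk (t ^ 2 - 4) ∧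
      mk (T.wVal i t (q i : O)) = mk ((t ^ 2 - 4) * (t ^ 2 - 4)) := fun i t => by
    have hT : T.q i = q i := by rw [hTq]
    constructor <;>
      simp only [TwoSetup.wVal, TwoSetup.vVal, hT, map_mul, map_sub, map_pow, map_add, map_one,
        map_ofNat, hqone] <;>
      ring
  -- the roots of the form
  have hr₀ : ∀ i, ∃ x : O, x ^ 2 - ρg.trace (T.F i) * x + LinearMap.det (ρg.ρ (T.F i)) = 0 ∧
      residue O x = residue O (T.rE i) := fun i => by
    obtain ⟨x, hx⟩ := hroots (HeckeDuality.heckeOp N 2 (q i) (hqp i)) (q i)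
    obtain ⟨h1, h2⟩ := hFg i
    obtain ⟨h3, h4⟩ := hFE i
    have ha0 : aj true (q i) = χ (HeckeDuality.heckeOp N 2 (q i) (hqp i)) := dif_pos (hqp i)
    rw [← ha0] at hx
    set t := aj true (q i)
    have hE := T.rE_root i
    rw [h3, h4] at hE
    have heq : residue O t = residue O (aj false (q i)) := by
      show residue O (a₀ (q i)) = residue O ((E.apOfModel (q i) : ℤ) : O)
      rw [hres (q i) (hqp i) (hqS₀ i), map_intCast]
    have hzero : (residue O (T.rE i) - residue O x) *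
        (residue O (T.rE i) - residue O (t - x)) = 0 := by
      have h5 := congrArg (residue O) hE
      have h6 := congrArg (residue O) hx
      simp only [map_add, map_sub, map_mul, map_pow, map_zero] at h5 h6
      rw [← heq] at h5
      rw [map_sub]
      linear_combination h5 - h6
    rw [h1, h2]
    rcases mul_eq_zero.1 hzero with h | h
    · exact ⟨x, hx, (sub_eq_zero.1 h).symm⟩
    · exact ⟨t - x, by linear_combination hx, (sub_eq_zero.1 h).symm⟩
  choose r₀ hr₀root hr₀res using hr₀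
  have hJ : ∀ J : Finset (ℕ × O[X]), (∀ j ∈ J, j.1.Prime ∧ j.1 ∉ S₀ ∧ True) →
      J.image Prod.fst ⊆ avoid → ∀ j ∈ J, j.1.Prime ∧ j.1 ∉ T.S := fun J hJ' hsub j hj => by
    refine ⟨(hJ' j hj).1, fun h => ?_⟩
    rw [hTS, Finset.mem_union] at h
    rcases h with h | h
    · exact (hJ' j hj).2.1 h
    · obtain ⟨i, -, hi⟩ := Finset.mem_image.1 h
      exact hqS i (hi ▸ hsub (Finset.mem_image_of_mem _ hj))
  have hJEp := hJ JE (fun j hj => ⟨(hJE j hj).1, (hJE j hj).2.1, trivial⟩)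
    (fun x hx => Finset.mem_union_left _ (Finset.mem_union_right _ hx))
  have hJ₀p := hJ J₀ (fun j hj => ⟨(hJ₀ j hj).1, (hJ₀ j hj).2.1, trivial⟩)
    (fun x hx => Finset.mem_union_right _ hx)
  have hS₀T : S₀ ⊆ T.S := hTS ▸ Finset.subset_union_left
  refine false_of_level L (hT O N m μ T L (hTr ▸ hR) ?_ ?_) (hsys _)
    (fun ℓ hℓ hℓS => by rw [hTa]; exact hres ℓ hℓ fun h => hℓS (hS₀T h)) ρg
    (fun ℓ hℓ hℓS => hρ₀ ℓ hℓ fun h => hℓS (hS₀T h)) r₀ hr₀root hr₀res JE J₀ hJEp hJ₀p ?_ ?_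
    hπ (a := a) (b := b) (K := K) (D := D) ?_ ?_ le_rfl (Nat.lt_succ_self _) ?_ ?_
  · rw [hTr, hTF]
    exact fun d hd h => hdet d hd fun i => (hphi i d hd).symm.trans (h i)
  · rw [hTr, hTF]
    exact fun i => (hdual i).imp fun d hd => ⟨hd.1, fun j => (hphi j d hd.1).trans (hd.2 j)⟩
  · intro c hc
    refine (hsepE T.S c hS₀T (fun j hj => (hJEp j hj).2) hc).resolve_left fun h => hmod ?_
    obtain ⟨g', e', hg', -, hgc⟩ := hc
    refine isModularModelOfLevel_of_agree E hE.Δ_ne_zero ⟨T.S, g', hg', fun ℓ hℓ hℓS => ?_⟩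
    rw [← hgc ℓ hℓ hℓS, h ℓ hℓ hℓS, map_intCast, map_intCast]
  · exact fun c hc => hsep₀ T.S c hS₀T (fun j hj => (hJ₀p j hj).2) hc
  · rw [hTn]
    exact lt_of_lt_of_le Nat.lt_two_pow_self (Nat.pow_le_pow_right two_pos (by omega))
  · intro j hj hjD
    rw [hTn]
    have hDn : D < 2 ^ n :=
      lt_of_lt_of_le Nat.lt_two_pow_self (Nat.pow_le_pow_right two_pos (by omega))
    obtain ⟨c, hc⟩ := pow_dvd_choose_two_pow hj hjD hDn
    rw [hc, Nat.cast_mul, Nat.cast_pow, Nat.cast_ofNat]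
    exact dvd_mul_of_dvd_left ((pow_dvd_pow π (by omega)).trans (pow_dvd_pow_of_dvd htwo _)) _
  · refine not_dvd_of_congr (P := P) (by omega) ?_ ha
    simp only [TwoSetup.valE, hXE, map_mul, map_prod]
    congr 1
    · refine Finset.prod_congr rfl fun i _ => ?_
      obtain ⟨h1, h2⟩ := hFE i
      rw [h1, h2, (hmkv i _).2]
      simp only [map_mul, map_sub, map_pow, htr]
      rfl
    · rw [hTa]
  · intro hdvd
    refine not_dvd_of_congr (P := P) (by omega) ?_ hb (hdvd.trans (dvd_pow_self _ two_ne_zero))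
    have hsq : ∀ i, (2 * r₀ i - ρg.trace (T.F i)) ^ 2 =
        ρg.trace (T.F i) ^ 2 - 4 * LinearMap.det (ρg.ρ (T.F i)) := fun i => by
      linear_combination 4 * hr₀root i
    have hV : mk (T.val₀ ρg a₀ r₀ J₀ ^ 2) = mk V₀ := by
      rw [TwoSetup.val₀, hV₀, mul_pow, mul_pow, ← Finset.prod_pow _ _ fun i => 2 * r₀ i - _]
      simp only [map_mul, map_pow, map_prod]
      congr 1
      · congr 1
        refine Finset.prod_congr rfl fun i _ => ?_
        obtain ⟨h1, h2⟩ := hFg i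
        rw [h1, h2, (hmkv i _).2]
        simp only [map_mul, map_sub, map_pow, htr]
      · congr 1
        refine Finset.prod_congr rfl fun i _ => ?_
        obtain ⟨h1, h2⟩ := hFg i
        rw [← map_pow, hsq, h1, h2]
        simp only [map_mul, map_sub, map_pow, htr, hqone, map_ofNat, mul_one]
    have hring : ∀ v w : O, (v * (v ^ (m + 1) * w)) ^ 2 = v ^ 2 * ((v ^ 2) ^ (m + 1) * w ^ 2) :=
      fun v w => by ring
    rw [hring, map_mul, map_mul, map_pow mk (T.val₀ ρg a₀ r₀ J₀ ^ 2), hX₀, map_mul mk V₀,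
      map_mul mk (V₀ ^ (m + 1)), map_pow mk V₀, hV]
    congr 2
    simp only [map_pow, map_prod]
    congr 1
    refine Finset.prod_congr rfl fun i _ => ?_
    obtain ⟨h1, h2⟩ := hFg i
    rw [h1, h2, (hmkv i _).1]
    simp only [map_sub, map_pow, htr]

end Fermat.Agent.RT.Two

end
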