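import Fermat.Agent.GaloisReps.CoeffExt
import Fermat.Agent.RT.Glue.Points

/-!
# Coefficient rings with roots of quadratics, and their embeddings into `ℂ`

A complete discrete valuation ring with residue characteristic `2` has only finitely many square
classes, so one finite extension contains the roots of every monic quadratic polynomial over it.
Algebraically closed fields of the same uncountable cardinality are isomorphic over a countable
common subring.
-/

set_option autoImplicit false
set_option linter.style.haveILetI false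

noncomputable section

namespace Fermat.Agent.RT.Two.Lift

open IsLocalRing Cardinal

section Squares

variable (O : Type) [CommRing O] [IsDomain O] [IsDiscreteValuationRing O]
  [IsAdicComplete (maximalIdeal O) O] [Finite (ResidueField O)] [CharZero O]

variable {O}

omit [Finite (ResidueField O)] [CharZero O] in
/-- `1 + 4c` is a square for `c` in the maximal ideal. -/
theorem exists_sq_eq_one_add_four_mul {c : O} (hc : c ∈ maximalIdeal O) :
    ∃ s : O, s ^ 2 = 1 + 4 * c := by
  haveI : HenselianRing O (maximalIdeal O) := inferInstance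
  have hmon : (Polynomial.X ^ 2 + Polynomial.X - Polynomial.C c).Monic := by
    monicity!
  obtain ⟨x, hx, -⟩ := HenselianRing.is_henselian (I := maximalIdeal O) _ hmon 0
    (by simpa using hc) (by simp)
  refine ⟨1 + 2 * x, ?_⟩
  have hx' : x ^ 2 + x - c = 0 := by simpa using hx
  linear_combination 4 * hx'

/-- Finitely many square classes. -/
theorem exists_square_classes :
    ∃ D : Finset O, ∀ a : O, a ≠ 0 → ∃ d ∈ D, ∃ s : O, a = d * s ^ 2 := by
  classical
  obtain ⟨π, hπ⟩ := IsDiscreteValuationRing.exists_irreducible O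
  set J : Ideal O := Ideal.span {4 * π}
  have hJ0 : (4 : O) * π ≠ 0 := mul_ne_zero (by norm_num) hπ.ne_zero
  haveI : Finite (O ⧸ J) := by
    obtain ⟨m, hm⟩ : ∃ m, J = maximalIdeal O ^ m := by
      have hJ : J ≠ (⊥ : Ideal O) := fun h => hJ0 (Ideal.span_singleton_eq_bot.1 h)
      obtain ⟨m, hm⟩ := IsDiscreteValuationRing.ideal_eq_span_pow_irreducible hJ hπ
      exact ⟨m, by rw [hm, hπ.maximalIdeal_eq, Ideal.span_singleton_pow]⟩
    rw [hm]
    haveI : Finite (O ⧸ maximalIdeal O) := inferInstanceAs (Finite (ResidueField O))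
    exact Ideal.finite_quotient_pow (IsNoetherian.noetherian _) m
  let rep : O ⧸ J → O := fun z => Quotient.out z
  haveI := Fintype.ofFinite (O ⧸ J)
  refine ⟨(Finset.univ.image rep) ∪ (Finset.univ.image fun z => π * rep z), fun a ha => ?_⟩
  obtain ⟨m, u, rfl⟩ := IsDiscreteValuationRing.eq_unit_mul_pow_irreducible ha hπ
  set b := rep (Ideal.Quotient.mk J (u : O))
  obtain ⟨w, hw⟩ : ∃ w, (u : O) - b = 4 * π * w := by
    have : Ideal.Quotient.mk J (u : O) = Ideal.Quotient.mk J b := (Quotient.out_eq _).symm
    obtain ⟨w, hw⟩ := Ideal.mem_span_singleton'.1 (Ideal.Quotient.eq.1 this)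
    exact ⟨w, by rw [← hw]; ring⟩
  have hbu : IsUnit b := by
    by_contra h
    have : (u : O) ∈ maximalIdeal O := by
      rw [show (u : O) = b + 4 * π * w by rw [← hw]; ring]
      exact add_mem h (Ideal.mul_mem_right _ _
        (Ideal.mul_mem_left _ _ ((mem_maximalIdeal _).2 hπ.not_isUnit)))
    exact (mem_maximalIdeal _).1 this u.isUnit
  obtain ⟨b', hb'⟩ := hbu
  obtain ⟨s, hs⟩ := exists_sq_eq_one_add_four_mul (c := π * w * ((b'⁻¹ : Oˣ) : O))
    (Ideal.mul_mem_right _ _ (Ideal.mul_mem_right _ _ ((mem_maximalIdeal _).2 hπ.not_isUnit)))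
  have hu : (u : O) = b * s ^ 2 := by
    have hinv : b * ((b'⁻¹ : Oˣ) : O) = 1 := by rw [← hb', Units.mul_inv]
    linear_combination hw - b * hs - (4 * π * w) * hinv
  rcases Nat.even_or_odd m with ⟨k, rfl⟩ | ⟨k, rfl⟩
  · exact ⟨b, Finset.mem_union_left _ (Finset.mem_image_of_mem _ (Finset.mem_univ _)), s * π ^ k,
      by rw [hu]; ring⟩
  · exact ⟨π * b, Finset.mem_union_right _
      (Finset.mem_image.2 ⟨_, Finset.mem_univ _, rfl⟩), s * π ^ k, by rw [hu]; ring⟩

variable (O)

/-- One finite extension contains the roots of all monic quadratics. -/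
theorem exists_quadratic_roots :
    ∃ (O' : Type) (_ : CommRing O') (_ : IsDomain O') (_ : IsDiscreteValuationRing O')
      (_ : IsAdicComplete (maximalIdeal O') O') (_ : Finite (ResidueField O')) (_ : CharZero O')
      (_ : Algebra O O') (_ : Module.Finite O O') (_ : IsLocalHom (algebraMap O O')),
      Function.Injective (algebraMap O O') ∧
      ∀ t d : O, ∃ x : O', x ^ 2 - algebraMap O O' t * x + algebraMap O O' d = 0 := by
  classical
  obtain ⟨D, hD⟩ := exists_square_classes (O := O)
  let K := AlgebraicClosure (FractionRing O)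
  choose rt hrt using fun d : O => IsAlgClosed.exists_eq_mul_self (algebraMap O K d)
  set L := IntermediateField.adjoin (FractionRing O) ((D.image rt : Finset K) : Set K)
  have hintr : ∀ d : O, IsIntegral O (rt d) := fun d => by
    refine IsIntegral.of_pow (n := 2) two_pos ?_
    rw [sq, ← hrt]
    exact isIntegral_algebraMap
  have : FiniteDimensional (FractionRing O) L :=
    IntermediateField.finiteDimensional_adjoin fun x hx => by
      obtain ⟨d, -, rfl⟩ := Finset.mem_image.1 (Finset.mem_coe.1 hx)
      exact (hintr d).tower_top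
  obtain ⟨hdvr, hfin, hloc, hhom, hcompl⟩ := GaloisReps.exists_integralClosure_dvr O L
  have hinj : Function.Injective (algebraMap O (integralClosure O L)) := fun a b h =>
    IsFractionRing.injective O (FractionRing O) ((algebraMap (FractionRing O) L).injective (by
      simpa [← IsScalarTower.algebraMap_apply] using congrArg Subtype.val h))
  have hresfin : Finite (ResidueField (integralClosure O L)) :=
    Module.finite_of_finite (ResidueField O)
  have hc0 : CharZero (integralClosure O L) := charZero_of_injective_algebraMap hinj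
  refine ⟨integralClosure O L, inferInstance, inferInstance, hdvr, hcompl, hresfin, hc0,
    inferInstance, hfin, hhom, hinj, fun t d => ?_⟩
  -- a square root of the discriminant
  obtain ⟨r, hr⟩ : ∃ r : L, r * r = algebraMap O L (t ^ 2 - 4 * d) := by
    by_cases h0 : t ^ 2 - 4 * d = 0
    · exact ⟨0, by rw [h0, map_zero, zero_mul]⟩
    · obtain ⟨e, he, s, hs⟩ := hD _ h0
      have hmem : rt e ∈ L :=
        IntermediateField.subset_adjoin _ _ (Finset.mem_coe.2 (Finset.mem_image_of_mem _ he))
      refine ⟨⟨rt e, hmem⟩ * algebraMap O L s, Subtype.val_injective ?_⟩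
      show (rt e * algebraMap O K s) * (rt e * algebraMap O K s) = algebraMap O K (t ^ 2 - 4 * d)
      rw [hs, map_mul, map_pow, hrt e]
      ring
  have h2 : (2 : L) ≠ 0 := by
    have : CharZero L := charZero_of_injective_algebraMap (R := O) fun a b h =>
      IsFractionRing.injective O (FractionRing O) ((algebraMap (FractionRing O) L).injective
        (by simpa [← IsScalarTower.algebraMap_apply] using h))
    exact two_ne_zero
  set x : L := (algebraMap O L t + r) / 2 with hx
  have hroot : x ^ 2 - algebraMap O L t * x + algebraMap O L d = 0 := by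
    rw [map_sub, map_mul, map_pow, map_ofNat] at hr
    rw [hx]
    field_simp
    linear_combination hr
  refine ⟨⟨x, ?_⟩, Subtype.val_injective ?_⟩
  · refine ⟨Polynomial.X ^ 2 - Polynomial.C t * Polynomial.X + Polynomial.C d, by monicity!, ?_⟩
    simpa using hroot
  · simpa using hroot

end Squares

/-- Algebraically closed fields of the same uncountable cardinality and characteristic zero are
isomorphic over a countable common subring. -/
theorem exists_ringEquiv_extend {R : Type} [CommRing R] [IsDomain R] [Countable R] {K L : Type}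
    [Field K] [Field L] [IsAlgClosed K] [IsAlgClosed L] (f : R →+* K) (g : R →+* L)
    (hf : Function.Injective f) (hg : Function.Injective g) (hK : ℵ₀ < #K)
    (hKL : #K = #L) : ∃ Φ : K ≃+* L, ∀ a : R, Φ (f a) = g a := by
  letI := f.toAlgebra
  letI := g.toAlgebra
  haveI : FaithfulSMul R K := (faithfulSMul_iff_algebraMap_injective R K).2 hf
  haveI : FaithfulSMul R L := (faithfulSMul_iff_algebraMap_injective R L).2 hg
  obtain ⟨s, hs⟩ := exists_isTranscendenceBasis R K
  obtain ⟨t, ht⟩ := exists_isTranscendenceBasis R L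
  have hR : #R ≤ ℵ₀ := mk_le_aleph0
  obtain ⟨e⟩ : Nonempty (s ≃ t) := Cardinal.eq.1 (by
    rw [← IsAlgClosed.cardinal_eq_cardinal_transcendence_basis_of_aleph0_lt' _ hs hR hK,
      ← IsAlgClosed.cardinal_eq_cardinal_transcendence_basis_of_aleph0_lt' _ ht hR (hKL ▸ hK), hKL])
  letI := IsAlgClosed.isAlgClosure_of_transcendence_basis _ hs
  letI := IsAlgClosed.isAlgClosure_of_transcendence_basis _ ht
  let ε : Algebra.adjoin R (Set.range ((↑) : s → K)) ≃ₐ[R]
      Algebra.adjoin R (Set.range ((↑) : t → L)) :=
    (hs.1.aevalEquiv.symm.trans (MvPolynomial.renameEquiv R e)).trans ht.1.aevalEquiv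
  refine ⟨IsAlgClosure.equivOfEquiv K L ε.toRingEquiv, fun a => ?_⟩
  have := IsAlgClosure.equivOfEquiv_algebraMap K L ε.toRingEquiv (algebraMap R _ a)
  rw [AlgEquiv.coe_ringEquiv, AlgEquiv.commutes] at this
  exact this

end Fermat.Agent.RT.Two.Lift

end
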