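import Fermat.Agent.RT.Two.Lift.Points
import Fermat.Agent.RT.Two.Core.Main

/-!
# Minimal lifting at two at one auxiliary level

The algebra of one level, the elliptic point and the point of a form give the hypotheses of the
core, provided the values separating the systems of level `N` have small valuation.
-/

set_option autoImplicit false
set_option linter.style.haveILetI false

noncomputable section

namespace Fermat.Agent.RT.Two

open IsLocalRing Fermat.Agent.Deform Fermat.Agent.Arith Polynomial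

variable {O : Type} [CommRing O] [IsDomain O] [IsDiscreteValuationRing O]
  [IsAdicComplete (maximalIdeal O) O] [Finite (ResidueField O)] [CharZero O]
  [Algebra (ZMod 2) (ResidueField O)] {N r : ℕ} (T : TwoSetup O N r)

/-- The value of `v i` from a trace and a determinant of Frobenius. -/
def TwoSetup.vVal (i : Fin r) (t d : O) : O :=
  (T.q i : O) * t ^ 2 - ((T.q i : O) + 1) ^ 2 * d

/-- The value of `v i` times the discriminant. -/
def TwoSetup.wVal (i : Fin r) (t d : O) : O :=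
  T.vVal i t d * (t ^ 2 - 4 * d)

/-- The value of the separating element for the elliptic point. -/
def TwoSetup.valE (JE : Finset (ℕ × O[X])) : O :=
  (∏ i, T.wVal i (T.ρE.trace (T.F i)) (LinearMap.det (T.ρE.ρ (T.F i)))) *
    ∏ j ∈ JE, j.2.eval (T.aE j.1 : O)

/-- The value of the separating element for the point of the form. -/
def TwoSetup.val₀ (ρ₀ : GaloisRepAdic O) (a₀ : ℕ → O) (r₀ : Fin r → O)
    (J₀ : Finset (ℕ × O[X])) : O :=
  (∏ i, T.wVal i (ρ₀.trace (T.F i)) (LinearMap.det (ρ₀.ρ (T.F i)))) *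
    ((∏ j ∈ J₀, j.2.eval (a₀ j.1)) * ∏ i, (2 * r₀ i - ρ₀.trace (T.F i)))

variable {T}

omit [IsAdicComplete (maximalIdeal O) O] [Finite (ResidueField O)] in
/-- **Minimal lifting at two at one level**: the contradiction. -/
theorem false_of_level {μ : ℕ} (L : TwoLevel T μ)
    (hgen : ∀ rz : Fin r → O, (∀ i, residue O (rz i) = residue O (T.rE i)) →
      ∀ (o : Fin r → Bool) (b : L.B), ∃ c : O, b - algebraMap O L.B c ∈
        Ideal.span (Set.range fun i => L.X i - algebraMap O L.B (rz i)) ⊔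
          Core.relations L.x L.y o)
    {a₀ : ℕ → O} (hsys : IsLevelSystem N T.S a₀)
    (hres : ∀ ℓ : ℕ, ℓ.Prime → ℓ ∉ T.S → residue O (a₀ ℓ) = (T.aE ℓ : ResidueField O))
    (ρ₀ : GaloisRepAdic O)
    (hρ₀ : ∀ ℓ : ℕ, ℓ.Prime → ℓ ∉ T.S → ∀ A : ValuationSubring QBar,
      A.LiesOverPrime ℓ → ∀ σ : GQ, A.IsFrobeniusAt σ ℓ →
        ρ₀.trace σ = a₀ ℓ ∧ LinearMap.det (ρ₀.ρ σ) = (ℓ : O))
    (r₀ : Fin r → O)
    (hroot : ∀ i, r₀ i ^ 2 - ρ₀.trace (T.F i) * r₀ i + LinearMap.det (ρ₀.ρ (T.F i)) = 0)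
    (hr₀ : ∀ i, residue O (r₀ i) = residue O (T.rE i))
    (JE J₀ : Finset (ℕ × O[X]))
    (hJE : ∀ j ∈ JE, j.1.Prime ∧ j.1 ∉ T.S) (hJ₀ : ∀ j ∈ J₀, j.1.Prime ∧ j.1 ∉ T.S)
    (hsepE : ∀ c : ℕ → AlgebraicClosure (FractionRing O), IsLevelSystem N T.S c →
      ∃ j ∈ JE, aeval (c j.1) j.2 = 0)
    (hsep₀ : ∀ c : ℕ → AlgebraicClosure (FractionRing O), IsLevelSystem N T.S c →
      (∀ ℓ : ℕ, ℓ.Prime → ℓ ∉ T.S →
        c ℓ = algebraMap O (AlgebraicClosure (FractionRing O)) (a₀ ℓ)) ∨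
        ∃ j ∈ J₀, aeval (c j.1) j.2 = 0)
    {π : O} (hπ : Irreducible π) {a b K D : ℕ} (hDn : D < 2 ^ T.n)
    (hchoose : ∀ j, 1 ≤ j → j ≤ D → π ^ K ∣ ((2 ^ T.n).choose j : O))
    (hD : r + μ * a ≤ D) (hK : μ * a + Core.expBound r (μ * a) * b < K)
    (hG : ¬ π ^ (a + 1) ∣ T.valE JE)
    (hc : ¬ π ^ (b + 1) ∣ T.val₀ ρ₀ a₀ r₀ J₀ *
      (T.val₀ ρ₀ a₀ r₀ J₀ ^ (r + 1) *
        ∏ i, T.vVal i (ρ₀.trace (T.F i)) (LinearMap.det (ρ₀.ρ (T.F i))))) :
    False := by
  classical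
  set Kb := AlgebraicClosure (FractionRing O)
  haveI : CharZero Kb := charZero_of_injective_algebraMap (R := FractionRing O)
    (algebraMap (FractionRing O) Kb).injective
  obtain ⟨θ₀, hθt, hθi, w, hw, hcoef⟩ := L.occurs a₀ hsys hres ρ₀ hρ₀ r₀ hroot hr₀
  obtain ⟨coef, hcoef, hw0⟩ := hcoef π K D hπ hDn hchoose
  set ℓv : Fin r → L.B := fun i => L.X i - algebraMap O L.B (r₀ i)
  set b₀ : L.B := (∏ j ∈ J₀, aeval (L.t j.1) j.2) *
    ∏ i, (L.X i - algebraMap O L.B (ρ₀.trace (T.F i) - r₀ i)) with hb₀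
  set bE : L.B := ∏ j ∈ JE, aeval (L.t j.1) j.2 with hbE
  set I := Ideal.span (Set.range L.x)
  have hkill : ∀ c : L.B, (∀ θ, L.IsBasePoint θ → θ c = 0) →
      L.weight * c ∈ Core.raiser I L.M := fun c hc m =>
    L.kills c (fun θ h1 h2 => hc θ ⟨h1, h2⟩) m
  -- a base point outside the zeros of `b₀` is the point of the form
  have key : ∀ θ, L.IsBasePoint θ → θ b₀ ≠ 0 → ∀ c, θ c = algebraMap O Kb (θ₀ c) := by
    intro θ hθ hne
    rw [hb₀, map_mul, mul_ne_zero_iff, map_prod, map_prod, Finset.prod_ne_zero_iff,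
      Finset.prod_ne_zero_iff] at hne
    obtain ⟨hne1, hne2⟩ := hne
    have ht : ∀ ℓ : ℕ, ℓ.Prime → ℓ ∉ T.S → θ (L.t ℓ) = algebraMap O Kb (θ₀ (L.t ℓ)) := by
      rcases hsep₀ _ hθ.2 with h | ⟨j, hj, h⟩
      · exact fun ℓ hℓ hℓS => by rw [h ℓ hℓ hℓS, hθt ℓ hℓ hℓS]
      · exact absurd (by rwa [← aeval_algHom_apply]) (hne1 j hj)
    have hX : ∀ i, θ (L.X i) = algebraMap O Kb (θ₀ (L.X i)) := by
      intro i
      obtain ⟨hX0, -, -, htr, hdet⟩ := hθi i
      have h1 := congrArg θ (L.X_root i)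
      rw [map_add, map_sub, map_pow θ, map_mul, L.trace_eq_of_t θ θ₀ ht,
        L.det_eq_of_t θ θ₀ ht, htr, hdet, map_zero] at h1
      have h2 := congrArg (algebraMap O Kb) (hroot i)
      rw [map_add, map_sub, map_pow (algebraMap O Kb), map_mul, map_zero] at h2
      have h3 := hne2 i (Finset.mem_univ i)
      rw [map_sub, AlgHom.commutes, map_sub] at h3
      rw [hX0]
      have : (θ (L.X i) - algebraMap O Kb (r₀ i)) *
          (θ (L.X i) - (algebraMap O Kb (ρ₀.trace (T.F i)) - algebraMap O Kb (r₀ i))) = 0 := by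
        linear_combination h1 - h2
      exact sub_eq_zero.1 ((mul_eq_zero.1 this).resolve_right h3)
    refine DFunLike.congr_fun (AlgHom.ext_of_adjoin_eq_top L.adjoin_eq_top ?_
      (φ₁ := θ) (φ₂ := (Algebra.ofId O Kb).comp θ₀))
    rintro _ ((⟨σ, rfl⟩ | ⟨σ, rfl⟩) | ⟨i, rfl⟩)
    exacts [L.trace_eq_of_t θ θ₀ ht σ, L.det_eq_of_t θ θ₀ ht σ, hX i]
  set G := L.weight * bE with hGdef
  set G₀ := L.weight * b₀ with hG₀def
  -- the values
  have hvE : ∀ i, L.θE (L.v i * ((L.R (T.F i)).trace ^ 2 - 4 * (L.R (T.F i)).det)) =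
      T.wVal i (T.ρE.trace (T.F i)) (LinearMap.det (T.ρE.ρ (T.F i))) := fun i => by
    obtain ⟨ht, hd⟩ := L.θE_frobenius i
    simp only [TwoSetup.wVal, TwoSetup.vVal, L.v_eq, map_mul, map_sub, map_pow, map_ofNat,
      map_natCast, map_add, map_one, ht, hd]
  have hv₀ : ∀ i, θ₀ (L.v i) = T.vVal i (ρ₀.trace (T.F i)) (LinearMap.det (ρ₀.ρ (T.F i))) ∧
      θ₀ (L.v i * ((L.R (T.F i)).trace ^ 2 - 4 * (L.R (T.F i)).det)) =
        T.wVal i (ρ₀.trace (T.F i)) (LinearMap.det (ρ₀.ρ (T.F i))) := fun i => by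
    obtain ⟨-, -, -, ht, hd⟩ := hθi i
    constructor <;>
      simp only [TwoSetup.wVal, TwoSetup.vVal, L.v_eq, map_mul, map_sub, map_pow, map_ofNat,
        map_natCast, map_add, map_one, ht, hd]
  have hvalE : L.θE G = T.valE JE := by
    rw [hGdef, hbE, TwoLevel.weight, map_mul, map_prod, map_prod, TwoSetup.valE]
    congr 1
    · exact Finset.prod_congr rfl fun i _ => hvE i
    · refine Finset.prod_congr rfl fun j hj => ?_
      rw [← aeval_algHom_apply, L.θE_t _ (hJE j hj).1 (hJE j hj).2, coe_aeval_eq_eval]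
  have hval₀ : θ₀ G₀ = T.val₀ ρ₀ a₀ r₀ J₀ := by
    rw [hG₀def, hb₀, TwoLevel.weight, map_mul, map_prod, map_mul, map_prod, map_prod,
      TwoSetup.val₀]
    congr 1
    · exact Finset.prod_congr rfl fun i _ => (hv₀ i).2
    congr 1
    · refine Finset.prod_congr rfl fun j hj => ?_
      rw [← aeval_algHom_apply, hθt _ (hJ₀ j hj).1 (hJ₀ j hj).2, coe_aeval_eq_eval]
    · refine Finset.prod_congr rfl fun i _ => ?_
      rw [map_sub, AlgHom.commutes, (hθi i).1, Algebra.algebraMap_self, RingHom.id_apply]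
      ring
  have H : Core.Hyp L.x ℓv L.y L.v G G₀ θ₀ L.θE coef w μ π D :=
    { hcoef := fun a' j m h => hcoef a' j m h
      hP := fun j => by
        rw [hG₀def, mul_assoc]
        refine hkill _ fun θ hθ => ?_
        by_cases h0 : θ b₀ = 0
        · rw [map_mul, h0, zero_mul]
        · rw [map_mul, key θ hθ h0 (ℓv j), map_sub, (hθi j).1, AlgHom.commutes,
            Algebra.algebraMap_self, RingHom.id_apply, sub_self, map_zero, mul_zero]
      hQ := fun i => by
        rw [hG₀def, mul_assoc]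
        exact hkill _ fun θ hθ => by rw [map_mul, (hθ.1 i).2, mul_zero]
      hG₀ := by
        rw [show G₀ * (G₀ - algebraMap O L.B (θ₀ G₀)) =
          L.weight * (b₀ * (G₀ - algebraMap O L.B (θ₀ G₀))) by rw [hG₀def]; ring]
        refine hkill _ fun θ hθ => ?_
        by_cases h0 : θ b₀ = 0
        · rw [map_mul, h0, zero_mul]
        · rw [map_mul, map_sub, key θ hθ h0 G₀, AlgHom.commutes, sub_self, mul_zero]
      hgen := fun o c => hgen r₀ hr₀ o c
      hvy := fun i m => L.relation i m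
      hw := hw
      hw0 := hw0 (by omega)
      hG := fun m => hkill bE (fun θ hθ => by
        obtain ⟨j, hj, h⟩ := hsepE _ hθ.2
        rw [hbE, map_prod]
        exact Finset.prod_eq_zero hj (by rwa [← aeval_algHom_apply])) m
      hfin := inferInstance
      hμ := L.spanFinrank_le
      hθ₀ := fun i => by
        obtain ⟨hX0, hx, hy, -, -⟩ := hθi i
        exact ⟨by rw [map_sub, hX0, AlgHom.commutes, Algebra.algebraMap_self, RingHom.id_apply,
          sub_self], hy, hx⟩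
      hθE := fun i => by
        refine ⟨?_, (L.θE_xy i).2, (L.θE_xy i).1⟩
        rw [map_sub, L.θE_X, AlgHom.commutes, Algebra.algebraMap_self, RingHom.id_apply,
          ← Ideal.mem_span_singleton, ← hπ.maximalIdeal_eq, ← residue_eq_zero_iff, map_sub, hr₀ i,
          sub_self] }
  refine Core.false_of_hyp hπ coef H hD (hvalE ▸ hG) ?_ hK
  rw [hval₀, Finset.prod_congr rfl fun i _ => (hv₀ i).1]
  exact hc

end Fermat.Agent.RT.Two

end
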