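import Fermat.Agent.RT.Two.Hecke.Interface
import Fermat.Agent.Arith.Chebotarev.Main

/-!
# Points of an auxiliary level

A point with values in a domain of characteristic zero is determined on all traces and
determinants by its values at the good primes; reduction of an integral point is the augmentation.
-/

set_option autoImplicit false
set_option linter.style.haveILetI false

noncomputable section

namespace Fermat.Agent.RT.Two

open IsLocalRing Fermat.Agent.Deform Fermat.Agent.Arith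

variable {O : Type} [CommRing O] [IsDomain O] [IsDiscreteValuationRing O]
  [IsAdicComplete (maximalIdeal O) O] [Finite (ResidueField O)] [CharZero O]
  [Algebra (ZMod 2) (ResidueField O)] {N r : ℕ} {T : TwoSetup O N r} {μ : ℕ}

namespace TwoLevel

variable (L : TwoLevel T μ)

omit [IsAdicComplete (maximalIdeal O) O] [Finite (ResidueField O)] [CharZero O] in
theorem ker_aug : RingHom.ker (L.aug : L.B →+* ResidueField O) = maximalIdeal L.B := by
  refine IsLocalRing.eq_maximalIdeal (RingHom.ker_isMaximal_of_surjective _ fun z => ?_)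
  obtain ⟨a, rfl⟩ := residue_surjective z
  exact ⟨algebraMap O L.B a, AlgHom.commutes _ _⟩

omit [IsAdicComplete (maximalIdeal O) O] [Finite (ResidueField O)] [CharZero O] in
theorem algebraMap_mem_maximalIdeal {a : O} (ha : a ∈ maximalIdeal O) :
    algebraMap O L.B a ∈ maximalIdeal L.B := by
  rw [← L.ker_aug, RingHom.mem_ker, RingHom.coe_coe, AlgHom.commutes,
    ResidueField.algebraMap_eq, residue_eq_zero_iff]
  exact ha

omit [IsAdicComplete (maximalIdeal O) O] [Finite (ResidueField O)] [CharZero O] in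
/-- The reduction of an integral point. -/
theorem residue_point (θ : L.B →ₐ[O] O) (b : L.B) : residue O (θ b) = L.aug b := by
  obtain ⟨a, ha⟩ := residue_surjective (L.aug b)
  have hmem : b - algebraMap O L.B a ∈ maximalIdeal L.B := by
    rw [← L.ker_aug, RingHom.mem_ker, RingHom.coe_coe, map_sub, AlgHom.commutes,
      ResidueField.algebraMap_eq, ha, sub_self]
  have hθ : maximalIdeal L.B = RingHom.ker ((residue O).comp (θ : L.B →+* O)) :=
    (IsLocalRing.eq_maximalIdeal (RingHom.ker_isMaximal_of_surjective _ fun z => by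
      obtain ⟨c, rfl⟩ := residue_surjective z
      exact ⟨algebraMap O L.B c, congrArg (residue O) (AlgHom.commutes θ c)⟩)).symm
  rw [hθ, RingHom.mem_ker] at hmem
  simp only [RingHom.comp_apply, RingHom.coe_coe, map_sub, AlgHom.commutes,
    Algebra.algebraMap_self, RingHom.id_apply, sub_eq_zero] at hmem
  rw [hmem, ha]

omit [IsAdicComplete (maximalIdeal O) O] [Finite (ResidueField O)] [CharZero O] in
theorem point_maximalIdeal (θ : L.B →ₐ[O] O) (n : ℕ) {b : L.B}
    (hb : b ∈ maximalIdeal L.B ^ n) : θ b ∈ maximalIdeal O ^ n := by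
  have h : (maximalIdeal L.B).map (θ : L.B →+* O) ≤ maximalIdeal O := by
    refine Ideal.map_le_iff_le_comap.2 fun c hc => ?_
    rw [Ideal.mem_comap, RingHom.coe_coe, ← residue_eq_zero_iff, L.residue_point,
      ← RingHom.coe_coe L.aug, ← RingHom.mem_ker, L.ker_aug]
    exact hc
  exact Ideal.pow_right_mono h n (Ideal.map_pow (θ : L.B →+* O) _ _ ▸ Ideal.mem_map_of_mem _ hb)

omit [IsAdicComplete (maximalIdeal O) O] [Finite (ResidueField O)] [CharZero O] in
theorem algebraMap_mem_pow {n : ℕ} {a : O} (ha : a ∈ maximalIdeal O ^ n) :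
    algebraMap O L.B a ∈ maximalIdeal L.B ^ n := by
  have h : (maximalIdeal O).map (algebraMap O L.B) ≤ maximalIdeal L.B :=
    Ideal.map_le_iff_le_comap.2 fun c hc => L.algebraMap_mem_maximalIdeal hc
  exact Ideal.pow_right_mono h n (Ideal.map_pow (algebraMap O L.B) _ _ ▸ Ideal.mem_map_of_mem _ ha)

omit [IsAdicComplete (maximalIdeal O) O] [Finite (ResidueField O)] [CharZero O] in
/-- Krull intersection at the kernel of a point. -/
theorem eq_zero_of_forall_pow {C : Type} [CommRing C] [IsDomain C] (θ : L.B →+* C) {b : L.B}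
    (h : ∀ n : ℕ, b ∈ RingHom.ker θ ⊔ maximalIdeal L.B ^ n) : θ b = 0 := by
  haveI : IsNoetherianRing L.B := IsNoetherianRing.of_finite O L.B
  set J := RingHom.ker θ
  haveI : IsDomain (L.B ⧸ J) := (Ideal.Quotient.isDomain_iff_prime J).2 (RingHom.ker_isPrime θ)
  set m := (maximalIdeal L.B).map (Ideal.Quotient.mk J)
  have hm : m ≠ ⊤ := fun htop => by
    have h1 := congrArg (Ideal.comap (Ideal.Quotient.mk J)) htop
    rw [Ideal.comap_map_of_surjective _ Ideal.Quotient.mk_surjective, Ideal.comap_top,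
      ← RingHom.ker_eq_comap_bot, Ideal.mk_ker,
      sup_eq_left.2 (IsLocalRing.le_maximalIdeal (RingHom.ker_isPrime θ).ne_top)] at h1
    exact (maximalIdeal.isMaximal L.B).ne_top h1
  have hmem : Ideal.Quotient.mk J b ∈ ⨅ n : ℕ, m ^ n := by
    rw [Ideal.mem_iInf]
    intro n
    rw [← Ideal.map_pow]
    obtain ⟨u, hu, w, hw, huw⟩ := Submodule.mem_sup.1 (h n)
    rw [← huw, map_add, Ideal.Quotient.eq_zero_iff_mem.2 hu, zero_add]
    exact Ideal.mem_map_of_mem _ hw
  rw [Ideal.iInf_pow_eq_bot_of_isDomain m hm, Ideal.mem_bot, Ideal.Quotient.eq_zero_iff_mem] at hmem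
  exact hmem

omit [IsAdicComplete (maximalIdeal O) O] [Finite (ResidueField O)] [CharZero O] in
/-- Some Frobenius element is close to a given element. -/
theorem exists_frobenius_close (σ : GQ) (n : ℕ) :
    ∃ ℓ : ℕ, ℓ.Prime ∧ ℓ ∉ T.S ∧ ∃ A : ValuationSubring QBar, A.LiesOverPrime ℓ ∧
      ∃ s : GQ, A.IsFrobeniusAt s ℓ ∧
        (L.R σ).trace - (L.R s).trace ∈ maximalIdeal L.B ^ n := by
  obtain ⟨F, hF, hlev⟩ := L.cont n
  let mk := (Ideal.Quotient.mk (maximalIdeal L.B ^ n)).mapMatrix (m := Fin 2)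
  let ρ : GQ →* M2 (L.B ⧸ maximalIdeal L.B ^ n) := mk.toMonoidHom.comp L.R
  have hρ : ∀ τ : GQ, (∀ x ∈ F, τ x = x) → ρ τ = 1 := fun τ hτ => by
    ext i j
    have h := Ideal.Quotient.eq.2 (hlev τ hτ i j)
    show Ideal.Quotient.mk _ (L.R τ i j) = _
    rw [h]
    by_cases hij : i = j
    · subst hij; simp
    · simp [Matrix.one_apply_ne hij]
  obtain ⟨ℓ, hℓ, hℓS, A, hA, s, hs, he⟩ := Arith.Chebotarev.exists_frobenius_eq ρ F hρ σ T.S
  refine ⟨ℓ, hℓ, hℓS, A, hA, s, hs, Ideal.Quotient.eq.1 ?_⟩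
  have := congrArg Matrix.trace he
  simp only [ρ, mk, MonoidHom.comp_apply, RingHom.toMonoidHom_eq_coe, MonoidHom.coe_coe,
    RingHom.mapMatrix_apply, ← AddMonoidHom.map_trace] at this
  exact this.symm

omit [IsAdicComplete (maximalIdeal O) O] [Finite (ResidueField O)] [CharZero O] in
/-- A point is determined on traces by the good primes. -/
theorem trace_eq_of_t {C : Type} [CommRing C] [IsDomain C] [Algebra O C] (θ : L.B →ₐ[O] C)
    (θ₀ : L.B →ₐ[O] O)
    (h : ∀ ℓ : ℕ, ℓ.Prime → ℓ ∉ T.S → θ (L.t ℓ) = algebraMap O C (θ₀ (L.t ℓ))) (σ : GQ) :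
    θ (L.R σ).trace = algebraMap O C (θ₀ (L.R σ).trace) := by
  have key : θ ((L.R σ).trace - algebraMap O L.B (θ₀ (L.R σ).trace)) = 0 := by
    refine L.eq_zero_of_forall_pow (θ : L.B →+* C) fun n => ?_
    obtain ⟨ℓ, hℓ, hℓS, A, hA, s, hs, hclose⟩ := L.exists_frobenius_close σ n
    have ht := L.frobenius ℓ hℓ hℓS A hA s hs
    have e : (L.R σ).trace - algebraMap O L.B (θ₀ (L.R σ).trace) =
        (L.t ℓ - algebraMap O L.B (θ₀ (L.t ℓ))) + (((L.R σ).trace - (L.R s).trace) -
          algebraMap O L.B (θ₀ ((L.R σ).trace - (L.R s).trace))) := by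
      rw [ht, map_sub, map_sub]; ring
    rw [e]
    refine Submodule.add_mem_sup ?_
      (sub_mem hclose (L.algebraMap_mem_pow (L.point_maximalIdeal θ₀ n hclose)))
    rw [RingHom.mem_ker, RingHom.coe_coe, map_sub, h ℓ hℓ hℓS, AlgHom.commutes, sub_self]
  rwa [map_sub, AlgHom.commutes, sub_eq_zero] at key

omit [IsAdicComplete (maximalIdeal O) O] [Finite (ResidueField O)] [CharZero O] in
theorem two_mul_det (σ : GQ) : 2 * (L.R σ).det = (L.R σ).trace ^ 2 - (L.R (σ ^ 2)).trace := by
  rw [map_pow, pow_two (L.R σ), Matrix.det_fin_two, Matrix.trace_fin_two, Matrix.trace_fin_two]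
  simp [Matrix.mul_apply, Fin.sum_univ_two]
  ring

omit [IsAdicComplete (maximalIdeal O) O] [Finite (ResidueField O)] [CharZero O] in
/-- A point is determined on determinants by the good primes. -/
theorem det_eq_of_t {C : Type} [CommRing C] [IsDomain C] [CharZero C] [Algebra O C]
    (θ : L.B →ₐ[O] C) (θ₀ : L.B →ₐ[O] O)
    (h : ∀ ℓ : ℕ, ℓ.Prime → ℓ ∉ T.S → θ (L.t ℓ) = algebraMap O C (θ₀ (L.t ℓ))) (σ : GQ) :
    θ (L.R σ).det = algebraMap O C (θ₀ (L.R σ).det) := by
  refine mul_left_cancel₀ (two_ne_zero (α := C)) ?_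
  have e1 := congrArg θ (L.two_mul_det σ)
  have e2 := congrArg (algebraMap O C ∘ θ₀) (L.two_mul_det σ)
  simp only [Function.comp_apply] at e2
  rw [map_mul, map_sub, map_pow θ, map_ofNat] at e1
  rw [map_mul θ₀, map_sub θ₀, map_pow θ₀, map_ofNat θ₀, map_mul (algebraMap O C),
    map_sub (algebraMap O C), map_pow (algebraMap O C), map_ofNat (algebraMap O C)] at e2
  rw [e1, L.trace_eq_of_t θ θ₀ h, L.trace_eq_of_t θ θ₀ h, e2]

omit [IsAdicComplete (maximalIdeal O) O] [Finite (ResidueField O)] [CharZero O] in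
/-- The chosen root is a root of the characteristic polynomial of Frobenius. -/
theorem X_root (i : Fin r) :
    L.X i ^ 2 - (L.R (T.F i)).trace * L.X i + (L.R (T.F i)).det = 0 := by
  obtain ⟨h10, h00⟩ := L.frame i
  set Q : M2 L.B := (↑(L.P i)⁻¹ : M2 L.B) * L.R (T.F i) * ↑(L.P i) with hQ
  have ht : Q.trace = (L.R (T.F i)).trace := by
    rw [hQ, Matrix.trace_mul_cycle, Units.mul_inv, one_mul]
  have hd : Q.det = (L.R (T.F i)).det := by
    rw [hQ, Matrix.det_units_conj']
  rw [← ht, ← hd, Matrix.trace_fin_two, Matrix.det_fin_two, h10, ← h00]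
  ring

/-- The product of the `v i` and of the discriminants. -/
def weight : L.B :=
  ∏ i, L.v i * ((L.R (T.F i)).trace ^ 2 - 4 * (L.R (T.F i)).det)

/-- A point of level `N`. -/
def IsBasePoint (θ : L.B →ₐ[O] AlgebraicClosure (FractionRing O)) : Prop :=
  (∀ i, θ (L.x i) = 0 ∧ θ (L.y i) = 0) ∧ IsLevelSystem N T.S (fun ℓ => θ (L.t ℓ))

end TwoLevel

end Fermat.Agent.RT.Two

end
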